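import Fermat.Agent.Thue.Approximation
import Mathlib.Analysis.Complex.Polynomial.Basic
import Mathlib.FieldTheory.Separable

/-!
# Thue equations

An irreducible binary form of degree at least three takes every value only finitely often: at a
large solution `x / y` would be too good an approximation to a real root.
-/

set_option autoImplicit false

noncomputable section

namespace FA.Thue

open Polynomial

/-- The binary form of `f`. -/
def form (f : ℤ[X]) (x y : ℤ) : ℤ :=
  ∑ i ∈ Finset.range (f.natDegree + 1), f.coeff i * x ^ i * y ^ (f.natDegree - i)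

theorem form_eq_mul {K : Type*} [Field K] [CharZero K] (f : ℤ[X]) (x y : ℤ) (hy : y ≠ 0) :
    (form f x y : K) = (y : K) ^ f.natDegree * (f.map (Int.castRingHom K)).eval ((x : K) / y) := by
  rw [eval_eq_sum_range' (n := f.natDegree + 1)
    (by have := natDegree_map_le (f := Int.castRingHom K) (p := f); omega), Finset.mul_sum, form]
  push_cast
  refine Finset.sum_congr rfl fun i hi => ?_
  have hin : i ≤ f.natDegree := Nat.lt_succ_iff.1 (Finset.mem_range.1 hi)
  have hy' : (y : K) ≠ 0 := Int.cast_ne_zero.2 hy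
  rw [coeff_map, eq_intCast, show (y : K) ^ f.natDegree =
    (y : K) ^ (f.natDegree - i) * (y : K) ^ i by rw [← pow_add, Nat.sub_add_cancel hin], div_pow]
  field_simp

/-- For a fixed `y` there are finitely many `x`. -/
theorem finite_fibre {f : ℤ[X]} (hf : f.natDegree ≠ 0) (c y : ℤ) :
    {x : ℤ | form f x y = c}.Finite := by
  set n := f.natDegree with hn
  set p : ℤ[X] :=
    (∑ i ∈ Finset.range (n + 1), C (f.coeff i * y ^ (n - i)) * X ^ i) - C c with hp
  have hp0 : p ≠ 0 := fun h => by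
    have := congrArg (fun q => Polynomial.coeff q n) h
    simp only [hp, coeff_sub, finsetSum_coeff, coeff_C_mul, coeff_X_pow, mul_ite, mul_one,
      mul_zero, coeff_C, if_neg hf, sub_zero, coeff_zero] at this
    rw [Finset.sum_ite_eq (Finset.range (n + 1)) n, if_pos (Finset.self_mem_range_succ n),
      Nat.sub_self, pow_zero, mul_one] at this
    exact hf (by rw [hn, leadingCoeff_eq_zero.1 this, natDegree_zero])
  refine ((p.finite_setOfPred_isRoot hp0)).subset fun x hx => ?_
  show p.IsRoot x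
  simp only [Set.mem_ofPred_eq, form, ← hn] at hx
  simp only [hp, IsRoot.def, eval_sub, eval_finsetSum, eval_mul, eval_C, eval_pow, eval_X, ← hx]
  rw [sub_eq_zero]
  exact Finset.sum_congr rfl fun i _ => by ring

/-- The distance to the nearest root. -/
theorem exists_root_near {f : ℤ[X]} (hsep : (f.map (Int.castRingHom ℂ)).Separable)
    (hdeg : f.natDegree ≠ 0) : ∃ C : ℝ, 0 < C ∧ ∀ t : ℂ, ∃ z : ℂ,
      (f.map (Int.castRingHom ℂ)).IsRoot z ∧
      ‖t - z‖ ≤ C * ‖(f.map (Int.castRingHom ℂ)).eval t‖ := by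
  classical
  set g := f.map (Int.castRingHom ℂ) with hg
  have hgdeg : g.natDegree = f.natDegree :=
    natDegree_map_eq_of_injective Int.cast_injective f
  have hg0 : g ≠ 0 := fun h => hdeg (by rw [← hgdeg, h, natDegree_zero])
  have hsp := IsAlgClosed.splits g
  set R := g.roots.toFinset with hR
  have hnd : g.roots.Nodup := nodup_roots hsep
  have heval : ∀ t, ‖g.eval t‖ = ‖g.leadingCoeff‖ * ∏ z ∈ R, ‖t - z‖ := fun t => by
    conv_lhs => rw [hsp.eq_prod_roots]
    rw [eval_mul, eval_C, norm_mul, eval_multiset_prod, Multiset.map_map,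
      hR, Finset.prod_eq_multiset_prod, Multiset.toFinset_val, hnd.dedup]
    congr 1
    rw [show ∀ m : Multiset ℂ, ‖m.prod‖ = (m.map (‖·‖)).prod from
      fun m => map_multiset_prod (normHom : ℂ →*₀ ℝ) m, Multiset.map_map]
    congr 2
    funext z
    simp
  have hlc : 0 < ‖g.leadingCoeff‖ := norm_pos_iff.2 (leadingCoeff_ne_zero.2 hg0)
  let P : ℂ → ℝ := fun w => ∏ z ∈ R.erase w, ‖z - w‖ / 2
  have hP : ∀ w, 0 < P w := fun w => Finset.prod_pos fun z hz =>
    div_pos (norm_pos_iff.2 (sub_ne_zero.2 (Finset.mem_erase.1 hz).1)) two_pos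
  have hRne : R.Nonempty := by
    obtain ⟨z, hz⟩ := IsAlgClosed.exists_root g fun h => hdeg (by
      rw [← hgdeg]; exact natDegree_eq_of_degree_eq_some h)
    exact ⟨z, Multiset.mem_toFinset.2 ((mem_roots hg0).2 hz)⟩
  refine ⟨∑ w ∈ R, 1 / (‖g.leadingCoeff‖ * P w),
    Finset.sum_pos (fun w _ => one_div_pos.2 (mul_pos hlc (hP w))) hRne, fun t => ?_⟩
  obtain ⟨w, hw, hmin⟩ := R.exists_min_image (fun z => ‖t - z‖) hRne
  refine ⟨w, (mem_roots hg0).1 (Multiset.mem_toFinset.1 hw), ?_⟩
  have h1 : ‖g.leadingCoeff‖ * P w * ‖t - w‖ ≤ ‖g.eval t‖ := by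
    rw [heval, ← Finset.mul_prod_erase R _ hw, mul_assoc, mul_comm (P w)]
    refine mul_le_mul_of_nonneg_left (mul_le_mul_of_nonneg_left ?_ (norm_nonneg _)) (norm_nonneg _)
    refine Finset.prod_le_prod (fun z _ => by positivity) fun z hz => ?_
    have h2 := hmin z (Finset.mem_of_mem_erase hz)
    have h3 := norm_sub_le_norm_sub_add_norm_sub z t w
    rw [norm_sub_rev z t] at h3
    linarith
  calc ‖t - w‖ ≤ 1 / (‖g.leadingCoeff‖ * P w) * ‖g.eval t‖ := by
        rw [one_div_mul_eq_div, le_div_iff₀ (mul_pos hlc (hP w))]; linarith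
    _ ≤ _ := mul_le_mul_of_nonneg_right
        (Finset.single_le_sum (f := fun w => 1 / (‖g.leadingCoeff‖ * P w))
          (fun w _ => (one_div_pos.2 (mul_pos hlc (hP w))).le) hw) (norm_nonneg _)

/-- **Thue: an irreducible binary form of degree at least three takes each value finitely
often.** -/
theorem finite_solutions {f : ℤ[X]} (hirr : Irreducible f) (hdeg : 3 ≤ f.natDegree) (c : ℤ) :
    {p : ℤ × ℤ | form f p.1 p.2 = c}.Finite := by
  classical
  set n := f.natDegree with hn
  have hf0 : f ≠ 0 := hirr.ne_zero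
  have hirrQ : Irreducible (f.map (Int.castRingHom ℚ)) :=
    (IsPrimitive.Int.irreducible_iff_irreducible_map_cast
      (hirr.isPrimitive (by omega))).1 hirr
  have hdegQ : (f.map (Int.castRingHom ℚ)).natDegree = n :=
    natDegree_map_eq_of_injective Int.cast_injective f
  have hnoroot : ∀ r : ℚ, (f.map (Int.castRingHom ℚ)).eval r ≠ 0 := fun r hr => by
    have h : (f.map (Int.castRingHom ℚ)).natDegree = 1 := natDegree_eq_of_degree_eq_some
      (by simpa using degree_eq_one_of_irreducible_of_root hirrQ (show IsRoot _ r from hr))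
    omega
  have hsep : (f.map (Int.castRingHom ℂ)).Separable := by
    have := hirrQ.separable.map (f := algebraMap ℚ ℂ)
    rw [Polynomial.map_map] at this
    rwa [Subsingleton.elim ((algebraMap ℚ ℂ).comp (Int.castRingHom ℚ)) (Int.castRingHom ℂ)]
      at this
  obtain ⟨C, hC, hnear⟩ := exists_root_near hsep (by omega)
  set Cc : ℝ := C * (|(c : ℝ)| + 1) with hCc
  have hCc0 : 0 < Cc := by positivity
  set κ : ℝ := ((n : ℝ) / 2 + 1 + n) / 2 with hκ
  have hn3 : (3 : ℝ) ≤ n := by exact_mod_cast hdeg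
  have hκn : κ < n := by linarith
  have hκ1 : (n : ℝ) / 2 + 1 < κ := by linarith
  -- the exceptions at each root
  have hroot : ∀ z : ℂ, (f.map (Int.castRingHom ℂ)).IsRoot z → ∃ (F : Finset ℚ) (Y : ℝ),
      ∀ (x y : ℤ), Y < |(y : ℝ)| →
        ‖((x : ℂ) / y) - z‖ ≤ Cc / |(y : ℝ)| ^ n → ((x : ℚ) / y) ∈ F := by
    intro z hz
    by_cases him : z.im = 0
    · set α := z.re
      have hzα : z = ((α : ℝ) : ℂ) := Complex.ext rfl (by simp [him])
      have hrootα : aeval α (f.map (Int.castRingHom ℚ)) = 0 := by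
        have h1 : (f.map (Int.castRingHom ℝ)).eval α = 0 := by
          rw [IsRoot.def, hzα, eval_map, ← Complex.ofRealHom_eq_coe] at hz
          rw [eval_map]
          refine Complex.ofReal_injective ?_
          rw [← Complex.ofRealHom_eq_coe, hom_eval₂, Complex.ofReal_zero]
          rwa [Subsingleton.elim (Complex.ofRealHom.comp (Int.castRingHom ℝ)) (Int.castRingHom ℂ)]
        rw [aeval_def, eval₂_eq_eval_map, Polynomial.map_map]
        rw [Subsingleton.elim ((algebraMap ℚ ℝ).comp (Int.castRingHom ℚ)) (Int.castRingHom ℝ)]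
        exact h1
      have halg : IsAlgebraic ℚ α :=
        ⟨_, (Polynomial.map_ne_zero_iff Int.cast_injective).2 hf0, hrootα⟩
      have hirrα : Irrational α := by
        rintro ⟨r, hr⟩
        refine hnoroot r ((algebraMap ℚ ℝ).injective ?_)
        rw [map_zero, ← hrootα, ← hr, ← eq_ratCast (algebraMap ℚ ℝ), aeval_algebraMap_apply]
        simp
      have hdα : (minpoly ℚ α).natDegree = n := by
        rw [← minpoly.eq_of_irreducible hirrQ hrootα, natDegree_mul_C (inv_ne_zero
          (leadingCoeff_ne_zero.2 ((Polynomial.map_ne_zero_iff Int.cast_injective).2 hf0))),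
          hdegQ]
      have hfin := finite_approximations halg hirrα (κ := κ) (by rw [hdα]; exact hκ1)
      refine ⟨hfin.toFinset, max 1 (Cc ^ (1 / ((n : ℝ) - κ))), fun x y hy hle => ?_⟩
      rw [Set.Finite.mem_toFinset]
      show |α - (((x : ℚ) / y : ℚ) : ℝ)| < _
      have hy1 : (1 : ℝ) ≤ |(y : ℝ)| := ((le_max_left _ _).trans hy.le)
      have hy0 : (0 : ℝ) < |(y : ℝ)| := by linarith
      have hyz : y ≠ 0 := by intro h; simp [h] at hy0
      have hden : ((((x : ℚ) / y : ℚ).den : ℕ) : ℝ) ≤ |(y : ℝ)| := by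
        have h := Rat.den_dvd x y
        rw [Rat.divInt_eq_div] at h
        have h2 := Int.le_of_dvd (abs_pos.2 hyz) ((dvd_abs _ _).2 h)
        rw [← Int.cast_abs]
        exact_mod_cast h2
      refine lt_of_lt_of_le ?_ (Real.rpow_le_rpow_of_nonpos
        (by exact_mod_cast ((x : ℚ) / y : ℚ).pos) hden (by linarith))
      have h1 : |α - (((x : ℚ) / y : ℚ) : ℝ)| = ‖((x : ℂ) / y) - z‖ := by
        rw [abs_sub_comm, ← Real.norm_eq_abs, ← Complex.norm_real, hzα]
        push_cast
        rfl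
      rw [h1]
      refine hle.trans_lt ?_
      have h2 : Cc < |(y : ℝ)| ^ ((n : ℝ) - κ) := by
        have h3 := Real.rpow_lt_rpow (by positivity) ((le_max_right _ _).trans_lt hy)
          (show (0 : ℝ) < n - κ by linarith)
        rwa [← Real.rpow_mul hCc0.le, one_div_mul_cancel (by linarith), Real.rpow_one] at h3
      rw [div_lt_iff₀ (by positivity), ← Real.rpow_natCast, ← Real.rpow_add hy0,
        neg_add_eq_sub]
      exact h2
    · refine ⟨∅, max 1 (Cc / |z.im|), fun x y hy hle => ?_⟩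
      exfalso
      have hy1 : (1 : ℝ) ≤ |(y : ℝ)| := ((le_max_left _ _).trans hy.le)
      have h1 : |z.im| ≤ ‖((x : ℂ) / y) - z‖ := by
        refine le_trans (le_of_eq ?_) (Complex.abs_im_le_norm _)
        have hc : ((x : ℂ) / y) = (((x : ℝ) / y : ℝ) : ℂ) := by push_cast; rfl
        rw [hc]
        simp
      have h2 := (le_max_right _ _).trans_lt hy
      rw [div_lt_iff₀ (abs_pos.2 him)] at h2
      have h3 := h1.trans hle
      rw [le_div_iff₀ (by positivity)] at h3
      nlinarith [le_self_pow₀ hy1 (show n ≠ 0 by omega), abs_nonneg z.im]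
  choose! F Y hFY using hroot
  set g := f.map (Int.castRingHom ℂ)
  have hg0 : g ≠ 0 := (Polynomial.map_ne_zero_iff Int.cast_injective).2 hf0
  set Rf := g.roots.toFinset
  set Ymax : ℝ := ∑ z ∈ Rf, (|Y z| +
    ∑ t ∈ F z, |(c : ℝ)| / |(((f.map (Int.castRingHom ℚ)).eval t : ℚ) : ℝ)|) with hYmax
  obtain ⟨M, hM⟩ := exists_nat_ge Ymax
  have hbound : ∀ x y : ℤ, form f x y = c → |(y : ℝ)| ≤ (M : ℝ) + 1 := by
    intro x y hxy
    by_contra hbig
    push Not at hbig
    have hM0 : (0 : ℝ) ≤ M := Nat.cast_nonneg M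
    have hy1 : (1 : ℝ) ≤ |(y : ℝ)| := by linarith
    have hy0 : y ≠ 0 := by intro h; simp [h] at hy1; linarith
    obtain ⟨z, hz, hzle⟩ := hnear ((x : ℂ) / y)
    have hzR : z ∈ Rf := Multiset.mem_toFinset.2 ((mem_roots hg0).2 hz)
    have hterm : |Y z| + ∑ t ∈ F z, |(c : ℝ)| / |(((f.map (Int.castRingHom ℚ)).eval t : ℚ) : ℝ)| ≤
        Ymax :=
      Finset.single_le_sum (f := fun z => |Y z| +
        ∑ t ∈ F z, |(c : ℝ)| / |(((f.map (Int.castRingHom ℚ)).eval t : ℚ) : ℝ)|)
        (fun w _ => add_nonneg (abs_nonneg _) (Finset.sum_nonneg fun t _ => by positivity)) hzR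
    have hsum0 : 0 ≤ ∑ t ∈ F z, |(c : ℝ)| / |(((f.map (Int.castRingHom ℚ)).eval t : ℚ) : ℝ)| :=
      Finset.sum_nonneg fun t _ => by positivity
    have hev : ‖g.eval ((x : ℂ) / y)‖ = |(c : ℝ)| / |(y : ℝ)| ^ n := by
      have h := congrArg norm (form_eq_mul (K := ℂ) f x y hy0)
      rw [hxy, norm_mul, norm_pow, Complex.norm_intCast, Complex.norm_intCast] at h
      rw [eq_div_iff (pow_ne_zero _ (by linarith)), h, mul_comm]
    have hmem := hFY z hz x y (by linarith [le_abs_self (Y z)]) (by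
      refine hzle.trans ?_
      rw [hev, mul_div_assoc', hCc]
      gcongr
      linarith)
    have h2 : |(c : ℝ)| = |(y : ℝ)| ^ n *
        |(((f.map (Int.castRingHom ℚ)).eval ((x : ℚ) / y) : ℚ) : ℝ)| := by
      have h := congrArg (fun q : ℚ => |(q : ℝ)|) (form_eq_mul (K := ℚ) f x y hy0)
      simpa [hxy, abs_mul, abs_pow] using h
    have hpos : 0 < |(((f.map (Int.castRingHom ℚ)).eval ((x : ℚ) / y) : ℚ) : ℝ)| :=
      abs_pos.2 (Rat.cast_ne_zero.2 (hnoroot _))
    have h3 : |(c : ℝ)| / |(((f.map (Int.castRingHom ℚ)).eval ((x : ℚ) / y) : ℚ) : ℝ)| ≤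
        ∑ t ∈ F z, |(c : ℝ)| / |(((f.map (Int.castRingHom ℚ)).eval t : ℚ) : ℝ)| :=
      Finset.single_le_sum
        (f := fun t => |(c : ℝ)| / |(((f.map (Int.castRingHom ℚ)).eval t : ℚ) : ℝ)|)
        (fun t _ => by positivity) hmem
    rw [h2, mul_div_cancel_right₀ _ hpos.ne'] at h3
    rw [h2] at hterm hsum0
    linarith [le_self_pow₀ hy1 (show n ≠ 0 by omega), abs_nonneg (Y z)]
  refine ((Set.finite_Icc (-((M : ℤ) + 1)) ((M : ℤ) + 1)).biUnion fun y _ =>
    (finite_fibre (f := f) (by omega) c y).image fun x => (x, y)).subset ?_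
  rintro ⟨x, y⟩ hxy
  simp only [Set.mem_iUnion, Set.mem_image]
  have h := abs_le.1 (hbound x y hxy)
  exact ⟨y, ⟨by exact_mod_cast h.1, by exact_mod_cast h.2⟩, x, hxy, rfl⟩

end FA.Thue

end
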