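import Fermat.Agent.Thue.CubicForms
import Fermat.Agent.Thue.Equation
import Mathlib.Algebra.Polynomial.SpecificDegree
import Mathlib.RingTheory.Polynomial.GaussLemma

/-!
# Mordell's equation

`y² = x³ + k` has finitely many integral solutions for `k ≠ 0`: the cubic form
`X³ - 3 x X Y² + 2 y Y³` has discriminant `-108 k` and takes the value one, so it gives a solution
of one of finitely many Thue equations, from which its Hessian recovers `9 x`.
-/

set_option autoImplicit false

noncomputable section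

namespace FA.Thue

open Polynomial

namespace CubicForm

/-- The polynomial of a form. -/
def poly (G : CubicForm) : ℤ[X] := (⟨G.a, G.b, G.c, G.d⟩ : Cubic ℤ).toPoly

theorem natDegree_poly {G : CubicForm} (ha : G.a ≠ 0) : G.poly.natDegree = 3 :=
  Cubic.natDegree_of_a_ne_zero ha

theorem form_poly {G : CubicForm} (ha : G.a ≠ 0) (X Y : ℤ) : form G.poly X Y = G.eval X Y := by
  rw [form, natDegree_poly ha]
  simp only [poly, Finset.sum_range_succ, Finset.sum_range_zero, Cubic.coeff_eq_d,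
    Cubic.coeff_eq_c, Cubic.coeff_eq_b, Cubic.coeff_eq_a, eval, Int.cast_id]
  ring

theorem irreducible_poly {G : CubicForm} (hG : G.Anisotropic) {X Y : ℤ} (h1 : G.eval X Y = 1) :
    Irreducible G.poly := by
  have ha := hG.a_ne_zero
  have hprim : G.poly.IsPrimitive := by
    intro r hr
    rw [C_dvd_iff_dvd_coeff] at hr
    refine isUnit_of_dvd_one ?_
    rw [← h1, ← form_poly ha, form]
    exact Finset.dvd_sum fun i _ => ((hr i).mul_right _).mul_right _
  rw [hprim.irreducible_iff_irreducible_map_fraction_map (K := ℚ)]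
  have hdeg : (G.poly.map (algebraMap ℤ ℚ)).natDegree = 3 := by
    rw [natDegree_map_eq_of_injective (algebraMap ℤ ℚ).injective_int, natDegree_poly ha]
  refine (irreducible_iff_roots_eq_zero_of_degree_le_three (by omega) (by omega)).2 ?_
  refine Multiset.eq_zero_iff_forall_notMem.2 fun q hq => ?_
  have hq' := (mem_roots'.1 hq).2
  have h := form_eq_mul (K := ℚ) G.poly q.num q.den (by exact_mod_cast q.den_nz)
  rw [show (q.num : ℚ) / ((q.den : ℤ) : ℚ) = q by push_cast; exact q.num_div_den,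
    ← algebraMap_int_eq, hq', mul_zero, form_poly ha, Int.cast_eq_zero] at h
  exact q.den_nz (by exact_mod_cast (hG _ _ h).2)

theorem finite_eq_one {G : CubicForm} (hG : G.Anisotropic) :
    {p : ℤ × ℤ | G.eval p.1 p.2 = 1}.Finite := by
  rcases Set.eq_empty_or_nonempty {p : ℤ × ℤ | G.eval p.1 p.2 = 1} with h | ⟨p, hp⟩
  · rw [h]; exact Set.finite_empty
  · refine (finite_solutions (irreducible_poly hG hp)
      (natDegree_poly hG.a_ne_zero).ge 1).subset fun t ht => ?_
    show form G.poly t.1 t.2 = 1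
    rw [form_poly hG.a_ne_zero]
    exact ht

end CubicForm

/-- **Mordell's theorem**: `y² = x³ + k` has finitely many integral solutions. -/
theorem finite_mordell {k : ℤ} (hk : k ≠ 0) :
    {p : ℤ × ℤ | p.2 ^ 2 = p.1 ^ 3 + k}.Finite := by
  obtain ⟨S, hSfin, hS⟩ := CubicForm.exists_representatives (D := -108 * k) (by omega)
  set T : Set ℤ :=
    (⋃ G ∈ {G ∈ S | G.Anisotropic},
      (fun t : ℤ × ℤ => G.hess t.1 t.2 / 9) '' {t : ℤ × ℤ | G.eval t.1 t.2 = 1}) ∪
    (fun t : ℤ × ℤ => (t.1 - t.2) / 3) ''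
      (Set.Icc (-(4 * |k|)) (4 * |k|) ×ˢ Set.Icc (-(4 * |k|)) (4 * |k|)) with hT
  have hTfin : T.Finite := by
    refine Set.Finite.union ?_ (((Set.finite_Icc _ _).prod (Set.finite_Icc _ _)).image _)
    exact (hSfin.subset fun G hG => hG.1).biUnion fun G hG =>
      (CubicForm.finite_eq_one hG.2).image _
  refine ((hTfin.biUnion fun x _ =>
    (Set.finite_Icc (-|x ^ 3 + k|) |x ^ 3 + k|).image fun y => (x, y))).subset ?_
  rintro ⟨x, y⟩ hxy
  rw [Set.mem_ofPred_eq] at hxy
  refine Set.mem_biUnion (x := x) ?_ ⟨y, abs_le.1 ?_, rfl⟩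
  swap
  · have habs : |y| ≤ y ^ 2 := by
      rcases eq_or_ne y 0 with rfl | hy
      · simp
      · rw [← sq_abs]; exact le_self_pow₀ (abs_pos.2 hy) two_ne_zero
    exact (habs.trans hxy.le).trans (le_abs_self _)
  set F : CubicForm := ⟨1, 0, -3 * x, 2 * y⟩ with hF
  by_cases hani : F.Anisotropic
  · obtain ⟨p, q, r, s, hdet, hm⟩ := hS F (by
      simp only [hF, CubicForm.disc]; linear_combination -108 * hxy) hani
    left
    refine Set.mem_biUnion (x := F.act p q r s) ⟨hm, hani.act hdet⟩ ⟨(s, -r), ?_, ?_⟩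
    · show (F.act p q r s).eval s (-r) = 1
      rw [CubicForm.eval_act]
      simp only [Int.cast_id]
      rw [show p * s + q * -r = 1 by linear_combination hdet,
        show r * s + s * -r = 0 by ring]
      simp [hF, CubicForm.eval]
    · show (F.act p q r s).hess s (-r) / 9 = x
      rw [CubicForm.hess_act]
      simp only [Int.cast_id]
      rw [show p * s - q * r = 1 from hdet, show p * s + q * -r = 1 by linear_combination hdet,
        show r * s + s * -r = 0 by ring]
      simp only [hF, CubicForm.hess, Int.cast_id]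
      rw [show (1 : ℤ) ^ 2 * ((0 ^ 2 - 3 * 1 * (-3 * x)) * 1 ^ 2 +
        (0 * (-3 * x) - 9 * 1 * (2 * y)) * 1 * 0 +
        ((-3 * x) ^ 2 - 3 * 0 * (2 * y)) * 0 ^ 2) = x * 9 by ring]
      exact Int.mul_ediv_cancel _ (by norm_num)
  · right
    simp only [CubicForm.Anisotropic, not_forall] at hani
    obtain ⟨X, Y, h0, hne⟩ := hani
    simp only [hF, CubicForm.eval, Int.cast_id] at h0
    have hY : Y ≠ 0 := fun hY => hne ⟨by simpa [hY] using h0, hY⟩
    set t : ℚ := (X : ℚ) / Y with ht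
    have ht0 : t ^ 3 - 3 * x * t + 2 * y = 0 := by
      have hY' : (Y : ℚ) ≠ 0 := Int.cast_ne_zero.2 hY
      have : ((1 * X ^ 3 + 0 * X ^ 2 * Y + -3 * x * X * Y ^ 2 + 2 * y * Y ^ 3 : ℤ) : ℚ) = 0 := by
        rw [h0]; simp
      push_cast at this
      rw [ht]; field_simp; linear_combination this
    clear_value t
    obtain ⟨r, hr⟩ : ∃ r : ℤ, (r : ℚ) = t := by
      refine ⟨t.num, Rat.coe_int_num_of_den_eq_one ?_⟩
      have e : t.num ^ 3 - 3 * x * t.num * (t.den : ℤ) ^ 2 + 2 * y * (t.den : ℤ) ^ 3 = 0 := by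
        have hd : (t.den : ℚ) ≠ 0 := by exact_mod_cast t.den_nz
        rw [← t.num_div_den] at ht0
        field_simp at ht0
        exact_mod_cast (by linear_combination ht0 : (t.num : ℚ) ^ 3 -
          3 * x * t.num * (t.den : ℚ) ^ 2 + 2 * y * (t.den : ℚ) ^ 3 = 0)
      have hdvd : (t.den : ℤ) ∣ t.num ^ 3 :=
        ⟨3 * x * t.num * t.den - 2 * y * (t.den : ℤ) ^ 2, by linear_combination e⟩
      have hnat : t.den ∣ t.num.natAbs ^ 3 := by
        have := Int.natAbs_dvd_natAbs.2 hdvd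
        rwa [Int.natAbs_natCast, Int.natAbs_pow] at this
      exact Nat.Coprime.eq_one_of_dvd (t.reduced.pow_left 3).symm hnat
    have hr0 : r ^ 3 - 3 * x * r + 2 * y = 0 := by
      have : ((r ^ 3 - 3 * x * r + 2 * y : ℤ) : ℚ) = 0 := by
        rw [← hr] at ht0; push_cast; simpa using ht0
      exact_mod_cast this
    have hmul : (r ^ 2 - 4 * x) * (r ^ 2 - x) ^ 2 = 4 * k := by
      linear_combination 4 * hxy + (r ^ 3 - 3 * x * r - 2 * y) * hr0
    have h4k : 4 * k ≠ 0 := by omega
    have hw : |r ^ 2 - 4 * x| ≤ 4 * |k| := by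
      have := Int.le_of_dvd (abs_pos.2 h4k) ((abs_dvd_abs _ _).2 (Dvd.intro _ hmul))
      rwa [abs_mul, abs_of_pos (by norm_num : (0 : ℤ) < 4)] at this
    have hu : |r ^ 2 - x| ≤ 4 * |k| := by
      have hd : r ^ 2 - x ∣ 4 * k := hmul ▸ Dvd.dvd.mul_left (dvd_pow_self _ two_ne_zero) _
      have := Int.le_of_dvd (abs_pos.2 h4k) ((abs_dvd_abs _ _).2 hd)
      rwa [abs_mul, abs_of_pos (by norm_num : (0 : ℤ) < 4)] at this
    exact ⟨(r ^ 2 - x, r ^ 2 - 4 * x), ⟨abs_le.1 hu, abs_le.1 hw⟩, by simp; omega⟩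

end FA.Thue

end
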