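import Mathlib.NumberTheory.Modular
import Mathlib.Analysis.Complex.Polynomial.Basic
import Mathlib.Algebra.CubicDiscriminant

/-!
# Reduction of binary cubic forms

Anisotropic integral binary cubic forms of a given non-zero discriminant fall into finitely many
classes under `SL₂(ℤ)`: move the root of the Hessian (positive discriminant), or the non-real root
of the form (negative discriminant), into the fundamental domain.
-/

set_option autoImplicit false

noncomputable section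

namespace FA.Thue

/-- The integral binary cubic form `a X³ + b X² Y + c X Y² + d Y³`. -/
@[ext] structure CubicForm where
  a : ℤ
  b : ℤ
  c : ℤ
  d : ℤ

namespace CubicForm

variable (F : CubicForm) {R : Type*} [CommRing R]

/-- The value of the form. -/
def eval (X Y : R) : R :=
  F.a * X ^ 3 + F.b * X ^ 2 * Y + F.c * X * Y ^ 2 + F.d * Y ^ 3

/-- The Hessian covariant. -/
def hess (X Y : R) : R :=
  ((F.b : R) ^ 2 - 3 * F.a * F.c) * X ^ 2 + ((F.b : R) * F.c - 9 * F.a * F.d) * X * Y +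
    ((F.c : R) ^ 2 - 3 * F.b * F.d) * Y ^ 2

/-- The discriminant. -/
def disc : ℤ :=
  F.b ^ 2 * F.c ^ 2 - 4 * F.a * F.c ^ 3 - 4 * F.b ^ 3 * F.d - 27 * F.a ^ 2 * F.d ^ 2 +
    18 * F.a * F.b * F.c * F.d

/-- The form composed with a matrix. -/
def act (p q r s : ℤ) : CubicForm where
  a := F.eval p r
  b := 3 * F.a * p ^ 2 * q + F.b * (p ^ 2 * s + 2 * p * q * r) +
    F.c * (q * r ^ 2 + 2 * p * r * s) + 3 * F.d * r ^ 2 * s
  c := 3 * F.a * p * q ^ 2 + F.b * (q ^ 2 * r + 2 * p * q * s) +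
    F.c * (p * s ^ 2 + 2 * q * r * s) + 3 * F.d * r * s ^ 2
  d := F.eval q s

theorem eval_act (p q r s : ℤ) (X Y : R) :
    (F.act p q r s).eval X Y = F.eval ((p : R) * X + q * Y) ((r : R) * X + s * Y) := by
  simp only [eval, act]
  push_cast
  ring

theorem hess_act (p q r s : ℤ) (X Y : R) :
    (F.act p q r s).hess X Y =
      ((p : R) * s - q * r) ^ 2 * F.hess ((p : R) * X + q * Y) ((r : R) * X + s * Y) := by
  simp only [hess, eval, act]
  push_cast
  ring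

theorem disc_act (p q r s : ℤ) : (F.act p q r s).disc = (p * s - q * r) ^ 6 * F.disc := by
  simp only [disc, eval, act, Int.cast_id]
  ring

theorem syzygy :
    4 * (F.b ^ 2 - 3 * F.a * F.c) ^ 3 =
      (2 * F.b ^ 3 - 9 * F.a * F.b * F.c + 27 * F.a ^ 2 * F.d) ^ 2 + 27 * F.a ^ 2 * F.disc := by
  simp only [disc]
  ring

/-- The form has no non-trivial integral zero. -/
def Anisotropic : Prop :=
  ∀ X Y : ℤ, F.eval X Y = 0 → X = 0 ∧ Y = 0

variable {F}

theorem Anisotropic.a_ne_zero (h : F.Anisotropic) : F.a ≠ 0 := fun ha =>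
  one_ne_zero (h 1 0 (by simp [eval, ha])).1

theorem Anisotropic.d_ne_zero (h : F.Anisotropic) : F.d ≠ 0 := fun hd =>
  one_ne_zero (h 0 1 (by simp [eval, hd])).2

theorem Anisotropic.act (h : F.Anisotropic) {p q r s : ℤ} (hdet : p * s - q * r = 1) :
    (F.act p q r s).Anisotropic := fun X Y hXY => by
  rw [eval_act] at hXY
  obtain ⟨h1, h2⟩ := h _ _ hXY
  simp only [Int.cast_id] at h1 h2
  constructor
  · linear_combination s * h1 - q * h2 - X * hdet
  · linear_combination p * h2 - r * h1 - Y * hdet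

end CubicForm

/-- A point of the upper half plane is moved into the fundamental domain. -/
theorem exists_reduce (z : ℂ) (hz : 0 < z.im) :
    ∃ p q r s : ℤ, p * s - q * r = 1 ∧ ∃ τ lam : ℂ, 0 < τ.im ∧ 1 ≤ Complex.normSq τ ∧
      |τ.re| ≤ 1 / 2 ∧ (p : ℂ) * τ + q = lam * z ∧ (r : ℂ) * τ + s = lam := by
  obtain ⟨g, hg⟩ := ModularGroup.exists_smul_mem_fd (⟨z, hz⟩ : UpperHalfPlane)
  have hdet : g 0 0 * g 1 1 - g 0 1 * g 1 0 = 1 := by
    have := g.2
    rwa [Matrix.det_fin_two] at this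
  refine ⟨g 1 1, -g 0 1, -g 1 0, g 0 0, by linear_combination hdet,
    ↑(g • (⟨z, hz⟩ : UpperHalfPlane)), 1 / ((g 1 0 : ℂ) * z + g 1 1),
    (g • (⟨z, hz⟩ : UpperHalfPlane)).im_pos, hg.1, hg.2, ?_⟩
  have hden : (g 1 0 : ℂ) * z + g 1 1 ≠ 0 := by
    intro h
    have him := congrArg Complex.im h
    simp [hz.ne'] at him
    have hd0 : g 1 1 = 0 := by simpa [him] using h
    rw [him, hd0] at hdet
    omega
  have hdet' : (g 0 0 : ℂ) * g 1 1 - g 0 1 * g 1 0 = 1 := by exact_mod_cast hdet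
  rw [UpperHalfPlane.coe_specialLinearGroup_apply]
  simp only [eq_intCast, Int.cast_neg, Complex.ofReal_intCast]
  generalize hw : (g 1 0 : ℂ) * z + g 1 1 = w at hden ⊢
  constructor
  · field_simp
    linear_combination z * hdet' + (g 0 1 : ℂ) * hw
  · field_simp
    linear_combination hdet' - (g 0 0 : ℂ) * hw

namespace CubicForm

variable {F : CubicForm}

/-- The forms with bounded coefficients. -/
def box (N : ℤ) : Set CubicForm :=
  {G | |G.a| ≤ N ∧ |G.b| ≤ N ∧ |G.c| ≤ N ∧ |G.d| ≤ N}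

theorem box_finite (N : ℤ) : (box N).Finite := by
  have hfin := ((Set.finite_Icc (-N) N).prod ((Set.finite_Icc (-N) N).prod
    ((Set.finite_Icc (-N) N).prod (Set.finite_Icc (-N) N))))
  refine (hfin.image fun t => CubicForm.mk t.1 t.2.1 t.2.2.1 t.2.2.2).subset fun G hG => ?_
  obtain ⟨ha, hb, hc, hd⟩ := hG
  exact ⟨(G.a, G.b, G.c, G.d), ⟨abs_le.1 ha, abs_le.1 hb, abs_le.1 hc, abs_le.1 hd⟩, rfl⟩

theorem hessA_pos (hF : F.Anisotropic) (hD : 0 < F.disc) : 0 < F.b ^ 2 - 3 * F.a * F.c := by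
  have h := F.syzygy
  have ha : 0 < F.a ^ 2 := by have := hF.a_ne_zero; positivity
  have h3 : 0 < (F.b ^ 2 - 3 * F.a * F.c) ^ 3 := by
    nlinarith [sq_nonneg (2 * F.b ^ 3 - 9 * F.a * F.b * F.c + 27 * F.a ^ 2 * F.d), mul_pos ha hD]
  exact (Odd.pow_pos_iff (by decide : Odd 3)).1 h3

/-- Positive discriminant: the root of the Hessian is reduced. -/
theorem exists_small_of_disc_pos (hF : F.Anisotropic) (hD : 0 < F.disc) :
    ∃ p q r s : ℤ, p * s - q * r = 1 ∧
      F.act p q r s ∈ box (3 * F.disc ^ 3 + F.disc) := by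
  set A : ℝ := (F.b : ℝ) ^ 2 - 3 * F.a * F.c with hA
  set B : ℝ := (F.b : ℝ) * F.c - 9 * F.a * F.d with hB
  set C : ℝ := (F.c : ℝ) ^ 2 - 3 * F.b * F.d with hC
  have hA0 : 0 < A := by rw [hA]; exact_mod_cast hessA_pos hF hD
  have hDR : (0 : ℝ) < F.disc := by exact_mod_cast hD
  have hsq : Real.sqrt (3 * F.disc) ^ 2 = 3 * (F.disc : ℝ) := Real.sq_sqrt (by positivity)
  have hS0 : 0 < Real.sqrt (3 * F.disc) := Real.sqrt_pos.2 (by positivity)
  generalize Real.sqrt (3 * F.disc) = S at hsq hS0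
  set z : ℂ := ⟨-B / (2 * A), S / (2 * A)⟩ with hzdef
  have hzim : 0 < z.im := div_pos hS0 (by positivity)
  have hroot : F.hess z 1 = 0 := by
    have hid : B ^ 2 - 4 * A * C = -3 * (F.disc : ℝ) := by
      rw [hA, hB, hC, disc]; push_cast; ring
    have e : F.hess z 1 = (A : ℂ) * z ^ 2 + B * z + C := by
      simp only [hess, hA, hB, hC]; push_cast; ring
    rw [e]
    apply Complex.ext <;> simp [hzdef, sq]
    · field_simp
      nlinarith [hid, hsq]
    · field_simp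
      ring
  obtain ⟨p, q, r, s, hdet, τ, lam, him, hnorm, hre, h1, h2⟩ := exists_reduce z hzim
  refine ⟨p, q, r, s, hdet, ?_⟩
  set G := F.act p q r s with hG
  have hGD : G.disc = F.disc := by rw [hG, disc_act, hdet, one_pow, one_mul]
  have hGA : G.Anisotropic := hF.act hdet
  have hτ : G.hess τ 1 = 0 := by
    rw [hG, hess_act, mul_one, mul_one, h1, h2]
    have : F.hess (lam * z) lam = lam ^ 2 * F.hess z 1 := by simp only [hess]; ring
    rw [this, hroot, mul_zero, mul_zero]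
  set A' : ℝ := (G.b : ℝ) ^ 2 - 3 * G.a * G.c with hA'
  set B' : ℝ := (G.b : ℝ) * G.c - 9 * G.a * G.d with hB'
  set C' : ℝ := (G.c : ℝ) ^ 2 - 3 * G.b * G.d with hC'
  have hA'pos : 0 < A' := by rw [hA']; exact_mod_cast hessA_pos hGA (by rw [hGD]; exact hD)
  have e : G.hess τ 1 = (A' : ℂ) * τ ^ 2 + B' * τ + C' := by
    simp only [hess, hA', hB', hC']; push_cast; ring
  rw [e] at hτ
  obtain ⟨hr, hi⟩ := Complex.ext_iff.1 hτ
  simp [sq] at hr hi
  have hB'eq : B' = -2 * A' * τ.re :=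
    mul_right_cancel₀ him.ne' (by linarith : B' * τ.im = -2 * A' * τ.re * τ.im)
  have hC'eq : C' = A' * Complex.normSq τ := by
    rw [Complex.normSq_apply]
    linear_combination hr - τ.re * hB'eq
  have hAC : A' ≤ C' := by rw [hC'eq]; exact le_mul_of_one_le_right hA'pos.le hnorm
  have hBA : B' ^ 2 ≤ A' ^ 2 := by
    rw [hB'eq, mul_pow, mul_pow]
    have : τ.re ^ 2 ≤ 1 / 4 := by
      have := abs_le.1 hre
      nlinarith
    nlinarith [sq_nonneg A']
  have hid' : 4 * A' * C' - B' ^ 2 = 3 * (F.disc : ℝ) := by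
    rw [← hGD, hA', hB', hC', disc]; push_cast; ring
  have hprod : A' * C' ≤ (F.disc : ℝ) := by
    nlinarith [mul_le_mul_of_nonneg_left hAC hA'pos.le]
  have hA1 : (1 : ℝ) ≤ A' := by
    rw [hA'] at hA'pos ⊢
    exact_mod_cast (show (0 : ℤ) < G.b ^ 2 - 3 * G.a * G.c by exact_mod_cast hA'pos)
  have hC'D : C' ≤ (F.disc : ℝ) :=
    (le_mul_of_one_le_left (by linarith) hA1).trans hprod
  have hA'D : A' ≤ (F.disc : ℝ) := hAC.trans hC'D
  have hAi : G.b ^ 2 - 3 * G.a * G.c ≤ F.disc := by rw [hA'] at hA'D; exact_mod_cast hA'D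
  have hCi : G.c ^ 2 - 3 * G.b * G.d ≤ F.disc := by rw [hC'] at hC'D; exact_mod_cast hC'D
  have hApos : 0 ≤ G.b ^ 2 - 3 * G.a * G.c := (hessA_pos hGA (by rw [hGD]; exact hD)).le
  have hCpos : 0 ≤ G.c ^ 2 - 3 * G.b * G.d := by
    have : 0 ≤ C' := by linarith
    rw [hC'] at this; exact_mod_cast this
  have hD1 : 1 ≤ F.disc := hD
  have key : ∀ {a b c d : ℤ}, 0 ≤ b ^ 2 - 3 * a * c → b ^ 2 - 3 * a * c ≤ F.disc →
      4 * (b ^ 2 - 3 * a * c) ^ 3 =
        (2 * b ^ 3 - 9 * a * b * c + 27 * a ^ 2 * d) ^ 2 + 27 * a ^ 2 * F.disc →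
      |a| ≤ F.disc ^ 3 := by
    intro a b c d h0 hle h
    have h3 := pow_le_pow_left₀ h0 hle 3
    have hsq : |a| ≤ a ^ 2 := by
      rcases eq_or_ne a 0 with rfl | ha
      · simp
      · rw [← sq_abs]; exact le_self_pow₀ (abs_pos.2 ha) two_ne_zero
    nlinarith [sq_nonneg (2 * b ^ 3 - 9 * a * b * c + 27 * a ^ 2 * d),
      mul_le_mul_of_nonneg_left hD1 (sq_nonneg a)]
  have ha : |G.a| ≤ F.disc ^ 3 := key hApos hAi (by rw [← hGD]; exact G.syzygy)
  have hd : |G.d| ≤ F.disc ^ 3 := key (a := G.d) (b := G.c) (c := G.b) (d := G.a)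
    (by linarith [hCpos]) (by linarith [hCi]) (by rw [← hGD, disc]; ring)
  have hb2 : |G.b| ^ 2 ≤ F.disc + 3 * F.disc ^ 3 * |G.c| := by
    have := mul_le_mul_of_nonneg_right ha (abs_nonneg G.c)
    rw [← abs_mul] at this
    rw [sq_abs]
    linarith [le_abs_self (G.a * G.c)]
  have hc2 : |G.c| ^ 2 ≤ F.disc + 3 * F.disc ^ 3 * |G.b| := by
    have := mul_le_mul_of_nonneg_right hd (abs_nonneg G.b)
    rw [← abs_mul] at this
    rw [sq_abs]
    linarith [le_abs_self (G.d * G.b)]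
  have hM : 0 ≤ F.disc ^ 3 := by positivity
  have big : ∀ {s t : ℤ}, 0 ≤ t → t ≤ s → s ^ 2 ≤ F.disc + 3 * F.disc ^ 3 * t →
      s ≤ 3 * F.disc ^ 3 + F.disc := by
    intro s t ht hts h
    by_contra hlt
    nlinarith [mul_le_mul_of_nonneg_left hts hM]
  refine ⟨by linarith, ?_, ?_, by linarith⟩ <;> rcases le_total |G.b| |G.c| with h | h
  · exact h.trans (big (abs_nonneg _) h hc2)
  · exact big (abs_nonneg _) h hb2
  · exact big (abs_nonneg _) h hc2
  · exact h.trans (big (abs_nonneg _) h hb2)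

/-- A form of negative discriminant has a root in the upper half plane. -/
theorem exists_root_im_pos (hF : F.Anisotropic) (hD : F.disc < 0) :
    ∃ z : ℂ, 0 < z.im ∧ F.eval z 1 = 0 := by
  have ha : (F.a : ℂ) ≠ 0 := Int.cast_ne_zero.2 hF.a_ne_zero
  obtain ⟨z, hz⟩ := Complex.exists_root
    (f := (⟨(F.a : ℂ), F.b, F.c, F.d⟩ : Cubic ℂ).toPoly)
    (by rw [Cubic.degree_of_a_ne_zero ha]; norm_num)
  have hz' : F.eval z 1 = 0 := by
    simpa [Polynomial.IsRoot, Cubic.toPoly, eval] using hz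
  rcases lt_trichotomy z.im 0 with h | h | h
  · refine ⟨starRingEnd ℂ z, by simpa using h, ?_⟩
    have := congrArg (starRingEnd ℂ) hz'
    simpa [eval] using this
  · set θ : ℝ := z.re with hθ
    have hzθ : z = (θ : ℂ) := Complex.ext rfl (by simpa using h)
    have hf : (F.a : ℝ) * θ ^ 3 + F.b * θ ^ 2 + F.c * θ + F.d = 0 := by
      have : ((F.a : ℝ) * θ ^ 3 + F.b * θ ^ 2 + F.c * θ + F.d : ℂ) = 0 := by
        rw [← hz', hzθ, eval]; push_cast; ring
      exact_mod_cast this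
    set q1 : ℝ := F.b + F.a * θ with hq1
    set q0 : ℝ := F.c + F.b * θ + F.a * θ ^ 2 with hq0
    set δ : ℝ := q1 ^ 2 - 4 * F.a * q0 with hδ
    have hδneg : δ < 0 := by
      by_contra hh
      rw [not_lt] at hh
      have hdd : (F.d : ℝ) = -((F.a : ℝ) * θ ^ 3 + F.b * θ ^ 2 + F.c * θ) := by linarith
      have : (F.disc : ℝ) = δ * (3 * F.a * θ ^ 2 + 2 * F.b * θ + F.c) ^ 2 := by
        simp only [disc, hδ, hq1, hq0]; push_cast; rw [hdd]; ring
      have hDR : (F.disc : ℝ) < 0 := by exact_mod_cast hD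
      nlinarith [sq_nonneg (3 * (F.a : ℝ) * θ ^ 2 + 2 * F.b * θ + F.c)]
    have hsq : Real.sqrt (-δ) ^ 2 = -δ := Real.sq_sqrt (by linarith)
    have hA0 : (F.a : ℝ) ≠ 0 := Int.cast_ne_zero.2 hF.a_ne_zero
    set w : ℂ := ⟨-q1 / (2 * F.a), Real.sqrt (-δ) / (2 * |(F.a : ℝ)|)⟩ with hw
    refine ⟨w, div_pos (Real.sqrt_pos.2 (by linarith)) (by positivity), ?_⟩
    have hquad : ((F.a : ℝ) : ℂ) * w ^ 2 + q1 * w + q0 = 0 := by
      apply Complex.ext <;> simp [hw, sq]
      · field_simp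
        nlinarith [hsq, hδ, sq_abs (F.a : ℝ)]
      · field_simp
        ring
    have hf' : ((F.a : ℂ) * θ ^ 3 + F.b * θ ^ 2 + F.c * θ + F.d) = 0 := by exact_mod_cast hf
    simp only [hq1, hq0] at hquad
    push_cast at hquad
    rw [eval]
    linear_combination (w - (θ : ℂ)) * hquad + hf'
  · exact ⟨z, h, hz'⟩

/-- Negative discriminant: the non-real root is reduced. -/
theorem exists_small_of_disc_neg (hF : F.Anisotropic) (hD : F.disc < 0) :
    ∃ p q r s : ℤ, p * s - q * r = 1 ∧ F.act p q r s ∈ box (4 * (1 - F.disc) ^ 3) := by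
  obtain ⟨z, hzim, hroot⟩ := exists_root_im_pos hF hD
  obtain ⟨p, q, r, s, hdet, τ, lam, him, hnorm, hre, h1, h2⟩ := exists_reduce z hzim
  refine ⟨p, q, r, s, hdet, ?_⟩
  set G := F.act p q r s with hG
  have hGD : G.disc = F.disc := by rw [hG, disc_act, hdet, one_pow, one_mul]
  have hτ : G.eval τ 1 = 0 := by
    rw [hG, eval_act, mul_one, mul_one, h1, h2]
    have : F.eval (lam * z) lam = lam ^ 3 * F.eval z 1 := by simp only [eval]; ring
    rw [this, hroot, mul_zero]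
  have ha0 : (G.a : ℝ) ≠ 0 := Int.cast_ne_zero.2 (hF.act hdet).a_ne_zero
  set u := τ.re with hu
  set v := τ.im with hv
  obtain ⟨hr, hi⟩ := Complex.ext_iff.1 hτ
  simp [eval, pow_succ, ← hu, ← hv] at hr hi
  have hc : (G.c : ℝ) = G.a * (v ^ 2 - 3 * u ^ 2) - 2 * G.b * u :=
    mul_right_cancel₀ him.ne' (by linear_combination hi)
  set θ : ℝ := -(G.b : ℝ) / G.a - 2 * u with hθ
  have hb : (G.b : ℝ) = -(G.a : ℝ) * (θ + 2 * u) := by rw [hθ]; field_simp; ring
  have hc' : (G.c : ℝ) = G.a * (v ^ 2 + u ^ 2 + 2 * u * θ) := by rw [hc, hb]; ring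
  have hd : (G.d : ℝ) = -(G.a : ℝ) * θ * (u ^ 2 + v ^ 2) := by
    rw [hb, hc'] at hr; linarith
  set R : ℝ := -(F.disc : ℝ) with hR
  have hR1 : 1 ≤ R := by rw [hR]; exact_mod_cast (show (1 : ℤ) ≤ -F.disc by omega)
  have hdisc : R = 4 * (G.a : ℝ) ^ 4 * v ^ 2 * ((θ - u) ^ 2 + v ^ 2) ^ 2 := by
    rw [hR, ← hGD, disc]; push_cast; rw [hd, hc', hb]; ring
  have hu2 : u ^ 2 ≤ 1 / 4 := by have := abs_le.1 hre; nlinarith
  have hv2 : 3 / 4 ≤ v ^ 2 := by rw [Complex.normSq_apply, ← hu, ← hv] at hnorm; nlinarith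
  have ha1 : 1 ≤ |(G.a : ℝ)| := by exact_mod_cast Int.one_le_abs (hF.act hdet).a_ne_zero
  have ha4 : (1 : ℝ) ≤ (G.a : ℝ) ^ 4 := by
    rw [← Even.pow_abs (by decide : Even 4)]; exact one_le_pow₀ ha1
  set E : ℝ := (θ - u) ^ 2 + v ^ 2 with hE
  have hE1 : 3 / 4 ≤ E := by rw [hE]; linarith [sq_nonneg (θ - u)]
  have hv0 : 0 ≤ v ^ 2 := sq_nonneg v
  have hE0 : 0 ≤ E := by linarith
  have hE2 : 9 / 16 ≤ E ^ 2 := by nlinarith
  have ha : |(G.a : ℝ)| ≤ R := by
    have h4 : |(G.a : ℝ)| ≤ (G.a : ℝ) ^ 4 := by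
      rw [← Even.pow_abs (by decide : Even 4) (G.a : ℝ)]
      exact le_self_pow₀ ha1 (by norm_num)
    have := mul_le_mul hv2 hE2 (by norm_num) hv0
    have := mul_le_mul_of_nonneg_left this (show (0 : ℝ) ≤ (G.a : ℝ) ^ 4 by positivity)
    linarith
  have hvR : v ^ 2 ≤ R := by
    have := mul_le_mul ha4 (mul_le_mul_of_nonneg_left hE2 hv0) (by positivity) (by positivity)
    linarith
  have hwR : |θ - u| ≤ R := by
    have hE' : E ≤ R := by
      have h' : E * (3 / 4) ≤ E ^ 2 := by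
        rw [sq]; exact mul_le_mul_of_nonneg_left hE1 hE0
      have := mul_le_mul hv2 h' (by positivity) hv0
      have := mul_le_mul ha4 this (by positivity) (by positivity)
      linarith
    have hsqd : (θ - u) ^ 2 ≤ R := by linarith [hE]
    nlinarith [sq_abs (θ - u), sq_nonneg (|θ - u| - 1)]
  have hua : |u| ≤ 1 / 2 := hre
  have hθR : |θ| ≤ R + 1 := by linarith [abs_sub_abs_le_abs_sub θ u]
  have cast : ∀ {k : ℤ} {x : ℝ}, (k : ℝ) = x → |x| ≤ 4 * (1 + R) ^ 3 →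
      |k| ≤ 4 * (1 - F.disc) ^ 3 := by
    intro k x hk hx
    rw [← hk, hR] at hx
    exact_mod_cast (by push_cast; linarith : (|k| : ℝ) ≤ ((4 * (1 - F.disc) ^ 3 : ℤ) : ℝ))
  have hpow : 0 ≤ R ^ 2 ∧ 0 ≤ R ^ 3 := ⟨by positivity, by positivity⟩
  refine ⟨cast rfl ?_, cast hb ?_, cast hc' ?_, cast hd ?_⟩
  · linarith
  · rw [abs_mul, abs_neg]
    have : |θ + 2 * u| ≤ R + 2 := by
      have := abs_add_le θ (2 * u)
      rw [abs_mul, abs_two] at this
      linarith
    nlinarith [mul_le_mul ha this (abs_nonneg _) (by linarith)]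
  · rw [abs_mul]
    have : |v ^ 2 + u ^ 2 + 2 * u * θ| ≤ 2 * R + 2 := by
      have := abs_add_le (v ^ 2 + u ^ 2) (2 * u * θ)
      have := mul_le_mul hua hθR (abs_nonneg _) (by norm_num)
      rw [abs_mul (2 * u), abs_mul 2, abs_two, abs_of_nonneg (by positivity : 0 ≤ v ^ 2 + u ^ 2)]
        at *
      linarith
    nlinarith [mul_le_mul ha this (abs_nonneg _) (by linarith)]
  · rw [abs_mul, abs_mul, abs_neg, abs_of_nonneg (by positivity : 0 ≤ u ^ 2 + v ^ 2)]
    have h12 : |(G.a : ℝ)| * |θ| ≤ R * (R + 1) := mul_le_mul ha hθR (abs_nonneg _) (by linarith)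
    nlinarith [mul_le_mul h12 (add_le_add hu2 hvR) (by positivity) (by positivity)]

/-- **Anisotropic cubic forms of given discriminant form finitely many classes.** -/
theorem exists_representatives {D : ℤ} (hD : D ≠ 0) :
    ∃ S : Set CubicForm, S.Finite ∧ ∀ F : CubicForm, F.disc = D → F.Anisotropic →
      ∃ p q r s : ℤ, p * s - q * r = 1 ∧ F.act p q r s ∈ S := by
  refine ⟨box (3 * D ^ 3 + D) ∪ box (4 * (1 - D) ^ 3), (box_finite _).union (box_finite _),
    fun F hFD hF => ?_⟩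
  rcases lt_or_gt_of_ne hD with h | h
  · obtain ⟨p, q, r, s, hdet, hm⟩ := exists_small_of_disc_neg hF (hFD.trans_lt h)
    exact ⟨p, q, r, s, hdet, Or.inr (hFD ▸ hm)⟩
  · obtain ⟨p, q, r, s, hdet, hm⟩ := exists_small_of_disc_pos hF (h.trans_eq hFD.symm)
    exact ⟨p, q, r, s, hdet, Or.inl (hFD ▸ hm)⟩

end CubicForm

end FA.Thue

end
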