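import Mathlib.Algebra.Polynomial.HasseDeriv
import Mathlib.Algebra.Polynomial.Taylor
import Mathlib.FieldTheory.IsAlgClosed.AlgebraicClosure
import Mathlib.FieldTheory.Minpoly.IsIntegrallyClosed
import Mathlib.NumberTheory.SiegelsLemma
import Mathlib.RingTheory.Polynomial.GaussLemma
import Mathlib.RingTheory.Polynomial.Wronskian
import Mathlib.RingTheory.Polynomial.RationalRoot
import Mathlib.NumberTheory.Real.Irrational
import Mathlib.RingTheory.IntegralClosure.IsIntegral.Basic
import Mathlib.Analysis.Normed.Field.Basic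

/-!
# The auxiliary polynomials of Thue's theorem

For a monic `μ ∈ ℤ[X]` of degree `n` Siegel's lemma gives `P, Q ∈ ℤ[X]` of degree at most
`N < n m` with small coefficients such that `P - β Q` vanishes to order `m` at every root `β` of
`μ` in every ring. If `μ` is the minimal polynomial of an irrational algebraic integer they are not
proportional, so their Wronskian is non-zero and cannot vanish to a high order at a rational
point with large denominator.
-/

set_option autoImplicit false

noncomputable section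

namespace FA.Thue

open Polynomial Matrix
open scoped Matrix.Norms.Elementwise

section Taylor

variable {R : Type*} [CommRing R]

/-- Divisibility by a power of `X - r` in terms of the Taylor coefficients at `r`. -/
theorem pow_dvd_iff {f : R[X]} {r : R} {m : ℕ} :
    (X - C r) ^ m ∣ f ↔ ∀ j < m, (hasseDeriv j f).eval r = 0 := by
  simp only [← taylor_coeff, ← X_pow_dvd_iff]
  constructor
  · rintro ⟨g, rfl⟩
    exact ⟨taylor r g, by
      simp [taylor_apply, mul_comp, pow_comp, sub_comp]⟩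
  · rintro ⟨g, hg⟩
    refine ⟨g.comp (X - C r), ?_⟩
    have h := congrArg (fun p => Polynomial.comp p (X - C r)) hg
    simpa [taylor_apply, mul_comp, comp_assoc, pow_comp, add_comp] using h

theorem map_hasseDeriv {S : Type*} [CommRing S] (φ : R →+* S) (k : ℕ) (f : R[X]) :
    hasseDeriv k (f.map φ) = (hasseDeriv k f).map φ := by
  ext i
  simp [hasseDeriv_coeff]

end Taylor

/-- A polynomial with coefficients bounded by `H`. -/
def Small (H : ℝ) (f : ℤ[X]) : Prop := ∀ i, |(f.coeff i : ℝ)| ≤ H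

theorem Small.nonneg {H : ℝ} {f : ℤ[X]} (h : Small H f) : 0 ≤ H := (abs_nonneg _).trans (h 0)

/-- The value of a Hasse derivative. -/
theorem abs_eval_hasseDeriv_le {H A : ℝ} {f : ℤ[X]} (hf : Small H f) {N : ℕ}
    (hN : f.natDegree ≤ N) (hA : 1 ≤ A) {x : ℝ} (hx : |x| ≤ A) (j : ℕ) :
    |(hasseDeriv j (f.map (Int.castRingHom ℝ))).eval x| ≤ (N + 1) * (2 ^ N * H * A ^ N) := by
  have hdeg : (hasseDeriv j (f.map (Int.castRingHom ℝ))).natDegree < N + 1 := by
    have := natDegree_hasseDeriv_le (f.map (Int.castRingHom ℝ)) j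
    have := natDegree_map_le (f := Int.castRingHom ℝ) (p := f)
    omega
  rw [eval_eq_sum_range' hdeg]
  refine (Finset.abs_sum_le_sum_abs _ _).trans ?_
  refine (Finset.sum_le_card_nsmul _ _ (2 ^ N * H * A ^ N) fun i hi => ?_).trans
    (le_of_eq (by simp))
  rw [hasseDeriv_coeff, coeff_map, abs_mul, abs_mul, abs_pow, Nat.abs_cast, eq_intCast]
  have hiN : i ≤ N := Nat.lt_succ_iff.1 (Finset.mem_range.1 hi)
  by_cases hc : f.coeff (i + j) = 0
  · rw [hc]
    simp only [Int.cast_zero, abs_zero, mul_zero, zero_mul]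
    exact mul_nonneg (mul_nonneg (by positivity) hf.nonneg) (by positivity)
  · have hij : i + j ≤ N := (le_natDegree_of_ne_zero hc).trans hN
    have h1 : ((i + j).choose j : ℝ) ≤ 2 ^ N := by
      exact_mod_cast (Nat.choose_le_two_pow _ _).trans (Nat.pow_le_pow_right two_pos hij)
    exact mul_le_mul (mul_le_mul h1 (hf _) (abs_nonneg _) (by positivity))
      ((pow_le_pow_left₀ (abs_nonneg x) hx i).trans (pow_le_pow_right₀ hA hiN))
      (by positivity) (mul_nonneg (by positivity) hf.nonneg)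

/-- The coefficients of `X ^ k` reduced by a monic `μ` of degree `n`. -/
def powCoeff (μ : ℤ[X]) (n : ℕ) : ℕ → ℕ → ℤ
  | 0, i => if i = 0 then 1 else 0
  | k + 1, i => (if i = 0 then 0 else powCoeff μ n k (i - 1)) -
      powCoeff μ n k (n - 1) * μ.coeff i

/-- The powers of the roots of a monic polynomial in the basis of their first powers. -/
theorem exists_power_coeff {μ : ℤ[X]} (hmon : μ.Monic) {n : ℕ} (hn : μ.natDegree = n)
    (hn0 : 0 < n) :
    ∃ (c : ℕ → ℕ → ℤ) (c₀ : ℝ), 1 ≤ c₀ ∧
      (∀ {K : Type} [CommRing K] (α : K), aeval α μ = 0 →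
        ∀ k, α ^ k = ∑ i : Fin n, (c k i : K) * α ^ i.val) ∧
      ∀ k i, i < n → |(c k i : ℝ)| ≤ c₀ ^ k := by
  classical
  set c := powCoeff μ n with hc_def
  refine ⟨c, 1 + ∑ i ∈ Finset.range n, |(μ.coeff i : ℝ)|, ?_, ?_, ?_⟩
  · exact le_add_of_nonneg_right (Finset.sum_nonneg fun i _ => abs_nonneg _)
  · intro K _ α h
    have hroot : α ^ n = -∑ i ∈ Finset.range n, (μ.coeff i : K) * α ^ i := by
      rw [aeval_eq_sum_range, hn, Finset.sum_range_succ,
        show μ.coeff n = 1 from hn ▸ hmon.coeff_natDegree, one_smul] at h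
      simp only [zsmul_eq_mul] at h
      linear_combination h
    intro k
    have hconv : ∀ k, ∑ i : Fin n, (c k i : K) * α ^ i.val =
        ∑ i ∈ Finset.range n, (c k i : K) * α ^ i := fun k => by
      rw [Finset.sum_range]
    induction k with
    | zero =>
      rw [hconv,
        Finset.sum_eq_single_of_mem 0 (Finset.mem_range.2 hn0)
          (fun i _ hi => by simp [c, powCoeff, hi])]
      simp [c, powCoeff]
    | succ k ih =>
      rw [hconv] at ih
      rw [hconv]
      obtain ⟨d, rfl⟩ : ∃ d, n = d + 1 := ⟨n - 1, by omega⟩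
      have hc : ∀ i, (c (k + 1) i : K) =
          (if i = 0 then 0 else (c k (i - 1) : K)) - (c k d : K) * μ.coeff i := fun i => by
        show (((if i = 0 then 0 else c k (i - 1)) - c k (d + 1 - 1) * μ.coeff i : ℤ) : K) = _
        split_ifs <;> simp
      have key : ∑ i ∈ Finset.range (d + 1), (c (k + 1) i : K) * α ^ i =
          (∑ i ∈ Finset.range d, (c k i : K) * α ^ i) * α + (c k d : K) * α ^ (d + 1) := by
        simp only [hc, sub_mul, Finset.sum_sub_distrib, hroot]
        rw [Finset.sum_range_succ', Finset.sum_mul]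
        simp [pow_succ, mul_assoc, Finset.mul_sum]
        ring
      rw [pow_succ, ih, key, Finset.sum_range_succ, add_mul, pow_succ α d, mul_assoc]
  · intro k
    induction k with
    | zero =>
      intro i _
      show |(((if i = 0 then 1 else 0 : ℤ)) : ℝ)| ≤ _
      split_ifs <;> simp
    | succ k ih =>
      intro i hi
      have hck : |(c k (n - 1) : ℝ)| ≤ (1 + ∑ i ∈ Finset.range n, |(μ.coeff i : ℝ)|) ^ k :=
        ih _ (by omega)
      have hS : |(μ.coeff i : ℝ)| ≤ ∑ i ∈ Finset.range n, |(μ.coeff i : ℝ)| :=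
        Finset.single_le_sum (f := fun i => |(μ.coeff i : ℝ)|) (fun i _ => abs_nonneg _)
          (Finset.mem_range.2 hi)
      show |(((if i = 0 then 0 else c k (i - 1)) - c k (n - 1) * μ.coeff i : ℤ) : ℝ)| ≤ _
      push_cast
      rw [pow_succ, mul_add, mul_one]
      refine (abs_sub _ _).trans (add_le_add ?_ ?_)
      · split_ifs
        · simp only [abs_zero]
          positivity
        · exact ih _ (by omega)
      · rw [abs_mul]
        exact mul_le_mul hck hS (abs_nonneg _) (by positivity)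

/-- The equation that `P - α Q` vanishes to order `m` at every root `α`. -/
theorem exists_auxiliary {μ : ℤ[X]} (hmon : μ.Monic) {n : ℕ} (hn : μ.natDegree = n)
    (hn0 : 0 < n) (s : ℕ) :
    ∃ C : ℝ, 1 ≤ C ∧ ∀ m : ℕ, 1 ≤ m → ∀ N : ℕ, N ≤ n * m → n * m * (s + 1) ≤ 2 * s * (N + 1) →
      ∃ P Q : ℤ[X], (P ≠ 0 ∨ Q ≠ 0) ∧ P.natDegree ≤ N ∧ Q.natDegree ≤ N ∧
        Small (C ^ m) P ∧ Small (C ^ m) Q ∧
        ∀ {K : Type} [CommRing K] (α : K), aeval α μ = 0 →
          ∀ j < m, (hasseDeriv j (P.map (Int.castRingHom K))).eval α -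
            α * (hasseDeriv j (Q.map (Int.castRingHom K))).eval α = 0 := by
  classical
  obtain ⟨c, c₀, hc₀, hpow, hc⟩ := exists_power_coeff hmon hn hn0
  refine ⟨((16 * c₀ ^ 2) ^ n) ^ s, one_le_pow₀ (one_le_pow₀ (by nlinarith)), ?_⟩
  intro m hm N hN hNs
  let idx := Fin 2 × Fin (N + 1)
  let Mat : Matrix (Fin m × Fin n) idx ℤ := fun ji ak =>
    if (ji.1 : ℕ) ≤ ak.2 then
      if ak.1 = 0 then ((ak.2 : ℕ).choose ji.1 : ℤ) * c (ak.2 - ji.1) ji.2
      else -(((ak.2 : ℕ).choose ji.1 : ℤ) * c (ak.2 - ji.1 + 1) ji.2)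
    else 0
  have hMb : ∀ ji ak, |(Mat ji ak : ℝ)| ≤ 2 ^ N * c₀ ^ (N + 1) := by
    intro ji ak
    have hk : (ak.2 : ℕ) ≤ N := Nat.lt_succ_iff.1 ak.2.isLt
    have hch : (((ak.2 : ℕ).choose ji.1 : ℕ) : ℝ) ≤ 2 ^ N := by
      exact_mod_cast (Nat.choose_le_two_pow _ _).trans (Nat.pow_le_pow_right two_pos hk)
    simp only [Mat]
    split_ifs
    · push_cast
      rw [abs_mul, Nat.abs_cast]
      exact mul_le_mul hch ((hc _ _ ji.2.isLt).trans (pow_le_pow_right₀ hc₀ (by omega)))
        (abs_nonneg _) (by positivity)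
    · push_cast
      rw [abs_neg, abs_mul, Nat.abs_cast]
      exact mul_le_mul hch ((hc _ _ ji.2.isLt).trans (pow_le_pow_right₀ hc₀ (by omega)))
        (abs_nonneg _) (by positivity)
    · rw [Int.cast_zero, abs_zero]; positivity
  have hnm : 0 < n * m := by positivity
  have hlt : Fintype.card (Fin m × Fin n) < Fintype.card idx := by
    simp [idx]
    nlinarith
  obtain ⟨t, ht0, htM, htb⟩ := Int.Matrix.exists_ne_zero_int_vec_norm_le Mat hlt
    (by simpa [mul_comm] using hnm)
  let poly : Fin 2 → ℤ[X] := fun a => ∑ k : Fin (N + 1), monomial k.val (t (a, k))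
  have hcoeff : ∀ a (k : Fin (N + 1)), (poly a).coeff k.val = t (a, k) := fun a k => by
    simp [poly, coeff_monomial, Fin.val_inj]
  have hdeg : ∀ a, (poly a).natDegree ≤ N := fun a =>
    natDegree_sum_le_of_forall_le _ _ fun k _ =>
      (natDegree_monomial_le _).trans (Nat.lt_succ_iff.1 k.isLt)
  have hbound : ‖t‖ ≤ (((16 * c₀ ^ 2) ^ n) ^ s) ^ m := by
    refine htb.trans ?_
    have hA : max 1 ‖Mat‖ ≤ 2 ^ N * c₀ ^ (N + 1) := by
      refine max_le ?_ ((Matrix.norm_le_iff (by positivity)).2 fun i j => ?_)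
      · exact one_le_mul_of_one_le_of_one_le (one_le_pow₀ one_le_two) (one_le_pow₀ hc₀)
      · rw [Int.norm_eq_abs]; exact hMb i j
    have hbase : (Fintype.card idx : ℝ) * max 1 ‖Mat‖ ≤ (16 * c₀ ^ 2) ^ (n * m) := by
      have h1 : ((Fintype.card idx : ℕ) : ℝ) ≤ 2 * 2 ^ (n * m) := by
        simp only [idx, Fintype.card_prod, Fintype.card_fin]
        exact_mod_cast Nat.mul_le_mul_left 2
          ((Nat.succ_le_succ hN).trans (Nat.lt_two_pow_self (n := n * m)))
      calc (Fintype.card idx : ℝ) * max 1 ‖Mat‖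
          ≤ 2 * 2 ^ (n * m) * (2 ^ N * c₀ ^ (N + 1)) :=
            mul_le_mul h1 hA (zero_le_one.trans (le_max_left _ _)) (by positivity)
        _ ≤ 2 ^ (n * m) * 2 ^ (n * m) * (2 ^ (n * m) * c₀ ^ (n * m + 1)) := by
            gcongr
            · exact le_self_pow₀ one_le_two hnm.ne'
            · norm_num
        _ ≤ 2 ^ (n * m) * 2 ^ (n * m) * (2 ^ (n * m) * c₀ ^ (2 * (n * m))) := by
            gcongr
            omega
        _ = (8 * c₀ ^ 2) ^ (n * m) := by
            rw [pow_mul c₀, show (8 : ℝ) = 2 * 2 * 2 by norm_num, mul_pow, mul_pow, mul_pow]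
            ring
        _ ≤ (16 * c₀ ^ 2) ^ (n * m) := by gcongr; norm_num
    have hb1 : 1 ≤ (16 * c₀ ^ 2) ^ (n * m) := one_le_pow₀ (by nlinarith)
    have hc1 : 0 ≤ (Fintype.card idx : ℝ) * max 1 ‖Mat‖ := by positivity
    have he0 : ((Fintype.card (Fin m × Fin n) : ℝ) /
        ((Fintype.card idx : ℝ) - Fintype.card (Fin m × Fin n))) ≤ (s : ℝ) ∧
        0 ≤ ((Fintype.card (Fin m × Fin n) : ℝ) /
          ((Fintype.card idx : ℝ) - Fintype.card (Fin m × Fin n))) := by
      have h1 : (Fintype.card (Fin m × Fin n) : ℝ) < Fintype.card idx := by exact_mod_cast hlt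
      refine ⟨?_, div_nonneg (Nat.cast_nonneg _) (by linarith)⟩
      rw [div_le_iff₀ (by linarith)]
      simp [idx]
      have h2 : (n : ℝ) * m * (s + 1) ≤ 2 * s * (N + 1) := by exact_mod_cast hNs
      linarith
    refine (Real.rpow_le_rpow hc1 hbase he0.2).trans ?_
    refine (Real.rpow_le_rpow_of_exponent_le hb1 he0.1).trans (le_of_eq ?_)
    rw [Real.rpow_natCast, ← pow_mul, ← pow_mul, ← pow_mul]
    ring_nf
  have hsmall : ∀ a, Small ((((16 * c₀ ^ 2) ^ n) ^ s) ^ m) (poly a) := by
    intro a i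
    by_cases hi : i < N + 1
    · rw [show i = (⟨i, hi⟩ : Fin (N + 1)).val from rfl, hcoeff, ← Int.norm_eq_abs]
      exact (norm_le_pi_norm t _).trans hbound
    · rw [coeff_eq_zero_of_natDegree_lt ((hdeg a).trans_lt (by omega)), Int.cast_zero, abs_zero]
      exact (norm_nonneg t).trans hbound
  refine ⟨poly 0, poly 1, ?_, hdeg 0, hdeg 1, hsmall 0, hsmall 1, ?_⟩
  · by_contra h
    push Not at h
    refine ht0 (funext fun ak => ?_)
    obtain ⟨a, k⟩ := ak
    rw [← hcoeff]
    fin_cases a
    · simp [h.1]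
    · simp [h.2]
  · intro K _ α hα j hj
    have hev : ∀ a, (hasseDeriv j ((poly a).map (Int.castRingHom K))).eval α =
        ∑ k : Fin (N + 1), ((k.val.choose j : K) * (t (a, k) : K)) * α ^ (k.val - j) := fun a => by
      simp [poly, Polynomial.map_sum, map_monomial, map_sum, hasseDeriv_monomial, eval_finsetSum]
    have hterm : ∀ k : Fin (N + 1),
        ((k.val.choose j : K) * (t (0, k) : K)) * α ^ (k.val - j) -
          α * (((k.val.choose j : K) * (t (1, k) : K)) * α ^ (k.val - j)) =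
        ∑ i : Fin n, ((Mat (⟨j, hj⟩, i) (0, k) : K) * (t (0, k) : K) +
          (Mat (⟨j, hj⟩, i) (1, k) : K) * (t (1, k) : K)) * α ^ i.val := by
      intro k
      by_cases hjk : j ≤ k.val
      · simp only [Mat, if_pos hjk, show ((1 : Fin 2) = 0) = False from eq_false (by decide),
          if_false, if_true]
        rw [show α * (((k.val.choose j : K) * (t (1, k) : K)) * α ^ (k.val - j)) =
          ((k.val.choose j : K) * (t (1, k) : K)) * α ^ (k.val - j + 1) by ring,
          hpow α hα (k.val - j), hpow α hα (k.val - j + 1), Finset.mul_sum, Finset.mul_sum,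
          ← Finset.sum_sub_distrib]
        refine Finset.sum_congr rfl fun i _ => ?_
        push_cast
        ring
      · simp [Mat, if_neg hjk, Nat.choose_eq_zero_of_lt (not_le.1 hjk)]
    rw [hev, hev, Finset.mul_sum, ← Finset.sum_sub_distrib, Finset.sum_congr rfl fun k _ => hterm k,
      Finset.sum_comm]
    refine Finset.sum_eq_zero fun i _ => ?_
    rw [← Finset.sum_mul]
    have h0 := congrFun htM (⟨j, hj⟩, i)
    simp only [mulVec, dotProduct, Pi.zero_apply, idx, Fintype.sum_prod_type,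
      Fin.sum_univ_two, ← Finset.sum_add_distrib] at h0
    have h0' : ∑ k : Fin (N + 1), ((Mat (⟨j, hj⟩, i) (0, k) : K) * (t (0, k) : K) +
        (Mat (⟨j, hj⟩, i) (1, k) : K) * (t (1, k) : K)) = 0 := by
      simpa using congrArg (Int.cast : ℤ → K) h0
    rw [h0', zero_mul]

/-- An irrational algebraic integer is a zero of order at most `deg f / n` of `f`. -/
theorem eq_zero_of_dvd {α : ℝ} (hα : IsIntegral ℤ α) {n : ℕ}
    (hn : (minpoly ℤ α).natDegree = n) (m : ℕ) : ∀ (f : ℤ[X]), f.natDegree < n * m →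
      (X - C α) ^ m ∣ f.map (Int.castRingHom ℝ) → f = 0 := by
  induction m with
  | zero => intro f hf; omega
  | succ m ih =>
    intro f hf hdvd
    by_contra hf0
    set μ := minpoly ℤ α with hμ
    have hroot : (f.map (Int.castRingHom ℝ)).IsRoot α :=
      dvd_iff_isRoot.1 (dvd_trans (dvd_pow_self _ (Nat.succ_ne_zero m)) hdvd)
    have hμf : μ ∣ f := minpoly.isIntegrallyClosed_dvd hα (by
      rwa [IsRoot.def, eval_map, ← algebraMap_int_eq, ← aeval_def] at hroot)
    obtain ⟨g, rfl⟩ := hμf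
    have hg0 : g ≠ 0 := fun e => hf0 (by rw [e, mul_zero])
    have hμ0 : μ ≠ 0 := minpoly.ne_zero hα
    have hdeg := natDegree_mul hμ0 hg0
    have hinj : Function.Injective (Int.castRingHom ℝ) := Int.cast_injective
    have hsep : ((minpoly ℚ α).map (algebraMap ℚ ℝ)).Separable :=
      (minpoly.irreducible (hα.tower_top (A := ℚ))).separable.map
    have heq : μ.map (Int.castRingHom ℝ) = (minpoly ℚ α).map (algebraMap ℚ ℝ) := by
      rw [hμ, minpoly.isIntegrallyClosed_eq_field_fractions' ℚ hα, Polynomial.map_map]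
      congr 1
    have hμr : rootMultiplicity α (μ.map (Int.castRingHom ℝ)) ≤ 1 :=
      rootMultiplicity_le_one_of_separable (heq ▸ hsep) α
    have hne : μ.map (Int.castRingHom ℝ) * g.map (Int.castRingHom ℝ) ≠ 0 :=
      mul_ne_zero ((Polynomial.map_ne_zero_iff hinj).2 hμ0)
        ((Polynomial.map_ne_zero_iff hinj).2 hg0)
    rw [Polynomial.map_mul] at hdvd
    have h1 : m + 1 ≤ rootMultiplicity α (μ.map (Int.castRingHom ℝ) * g.map (Int.castRingHom ℝ)) :=
      (le_rootMultiplicity_iff hne).2 hdvd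
    rw [rootMultiplicity_mul hne] at h1
    refine hg0 (ih g ?_ ((le_rootMultiplicity_iff
      ((Polynomial.map_ne_zero_iff hinj).2 hg0)).1 (by omega)))
    rw [hdeg, hn, mul_add, mul_one] at hf
    omega

/-- Polynomials with vanishing Wronskian are proportional. -/
theorem exists_mul_eq_mul {P Q : ℤ[X]} (hQ : Q ≠ 0) (hW : wronskian P Q = 0) :
    ∃ a b : ℤ, a ≠ 0 ∧ C a * P = C b * Q := by
  refine ⟨Q.leadingCoeff, P.coeff Q.natDegree, leadingCoeff_ne_zero.2 hQ, ?_⟩
  by_contra hne
  set R := C Q.leadingCoeff * P - C (P.coeff Q.natDegree) * Q with hR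
  have hR0 : R ≠ 0 := sub_ne_zero.2 hne
  have hRq : R.coeff Q.natDegree = 0 := by
    simp [hR, coeff_natDegree, mul_comm]
  have hneq : R.natDegree ≠ Q.natDegree := fun e => leadingCoeff_ne_zero.2 hR0 (by
    rw [leadingCoeff, e, hRq])
  have hWR : R * derivative Q = derivative R * Q := by
    rw [wronskian, sub_eq_zero] at hW
    simp only [hR, derivative_sub, derivative_mul, derivative_C, zero_mul, zero_add]
    linear_combination C Q.leadingCoeff * hW
  set l := R.natDegree
  set q := Q.natDegree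
  have hlead : ∀ (F G : ℤ[X]), F.natDegree + G.natDegree ≥ 1 →
      (F * derivative G).coeff (F.natDegree + G.natDegree - 1) =
        (G.natDegree : ℤ) * (F.leadingCoeff * G.leadingCoeff) := by
    intro F G hpos
    rcases Nat.eq_zero_or_pos G.natDegree with h0 | h0
    · rw [eq_C_of_natDegree_eq_zero h0]; simp
    · rw [show F.natDegree + G.natDegree - 1 = F.natDegree + (G.natDegree - 1) by omega,
        coeff_mul_add_eq_of_natDegree_le le_rfl (natDegree_derivative_le G), coeff_derivative,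
        coeff_natDegree, show G.natDegree - 1 + 1 = G.natDegree by omega, coeff_natDegree]
      have : ((G.natDegree - 1 : ℕ) : ℤ) + 1 = (G.natDegree : ℤ) := by omega
      rw [this]; ring
  have h1 := hlead R Q (by omega)
  have h2 := hlead Q R (by omega)
  rw [mul_comm Q, add_comm] at h2
  rw [hWR, h2] at h1
  have h3 : ((R.natDegree : ℤ) - Q.natDegree) * (R.leadingCoeff * Q.leadingCoeff) = 0 := by
    linear_combination h1
  rcases mul_eq_zero.1 h3 with h | h
  · omega
  · exact mul_ne_zero (leadingCoeff_ne_zero.2 hR0) (leadingCoeff_ne_zero.2 hQ) h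

/-- The Wronskian of the auxiliary polynomials is not zero. -/
theorem wronskian_ne_zero {α : ℝ} (hα : IsIntegral ℤ α) (hirr : Irrational α) {n : ℕ}
    (hn : (minpoly ℤ α).natDegree = n) {m : ℕ} {P Q : ℤ[X]} (hPQ : P ≠ 0 ∨ Q ≠ 0)
    (hP : P.natDegree < n * m) (hQ : Q.natDegree < n * m)
    (hvan : ∀ j < m, (hasseDeriv j (P.map (Int.castRingHom ℝ))).eval α -
      α * (hasseDeriv j (Q.map (Int.castRingHom ℝ))).eval α = 0) : wronskian P Q ≠ 0 := by
  intro hW
  have hQ0 : Q ≠ 0 := by
    rintro rfl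
    refine hPQ.resolve_right (by simp) (eq_zero_of_dvd hα hn m P hP (pow_dvd_iff.2 fun j hj => ?_))
    simpa using hvan j hj
  obtain ⟨a, b, ha, hab⟩ := exists_mul_eq_mul hQ0 hW
  refine hQ0 (eq_zero_of_dvd hα hn m Q hQ (pow_dvd_iff.2 fun j hj => ?_))
  have h1 := congrArg (fun p : ℤ[X] => (hasseDeriv j (p.map (Int.castRingHom ℝ))).eval α) hab
  have hmap : ∀ (z : ℤ) (F : ℤ[X]), (C z * F).map (Int.castRingHom ℝ) =
      (z : ℝ) • F.map (Int.castRingHom ℝ) := fun z F => by
    rw [Polynomial.map_mul, Polynomial.map_C, smul_eq_C_mul, eq_intCast (Int.castRingHom ℝ)]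
  simp only [hmap, map_smul, eval_smul, smul_eq_mul] at h1
  have h2 := hvan j hj
  have h3 : ((b : ℝ) - α * a) * (hasseDeriv j (Q.map (Int.castRingHom ℝ))).eval α = 0 := by
    linear_combination (a : ℝ) * h2 - h1
  refine (mul_eq_zero.1 h3).resolve_left fun h => ?_
  refine hirr ⟨(b : ℚ) / a, ?_⟩
  have : (a : ℝ) ≠ 0 := Int.cast_ne_zero.2 ha
  push_cast
  field_simp
  linear_combination h

end FA.Thue

end
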