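import Fermat.Agent.Thue.Auxiliary
import Mathlib.Analysis.SpecialFunctions.Pow.Real
import Mathlib.FieldTheory.IntermediateField.Adjoin.Basic
import Mathlib.RingTheory.Algebraic.Integral

/-!
# Thue's theorem on rational approximation

If `α` is a real algebraic irrational of degree `n` and `κ > n / 2 + 1`, only finitely many
rationals `x` satisfy `|α - x| < den x ^ (-κ)`: two of them with very different denominators
would make a value of the auxiliary polynomial a non-zero rational that is too small.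
-/

set_option autoImplicit false
set_option linter.style.haveILetI false

noncomputable section

namespace FA.Thue

open Polynomial
open scoped Real

/-- The denominator of a value of an integer polynomial. -/
theorem exists_int_eval (f : ℤ[X]) {N : ℕ} (hN : f.natDegree ≤ N) (x : ℚ) :
    ∃ z : ℤ, (x.den : ℚ) ^ N * (f.map (Int.castRingHom ℚ)).eval x = z := by
  refine ⟨∑ i ∈ Finset.range (N + 1), f.coeff i * x.num ^ i * (x.den : ℤ) ^ (N - i), ?_⟩
  rw [eval_eq_sum_range' (n := N + 1)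
    (by have := natDegree_map_le (f := Int.castRingHom ℚ) (p := f); omega), Finset.mul_sum]
  push_cast
  refine Finset.sum_congr rfl fun i hi => ?_
  have hiN : i ≤ N := Nat.lt_succ_iff.1 (Finset.mem_range.1 hi)
  have hd : (x.den : ℚ) ≠ 0 := by exact_mod_cast x.den_nz
  rw [coeff_map, eq_intCast, show (x.den : ℚ) ^ N = (x.den : ℚ) ^ (N - i) * (x.den : ℚ) ^ i by
    rw [← pow_add, Nat.sub_add_cancel hiN]]
  conv_lhs => rw [← x.num_div_den, div_pow]
  rw [Rat.num_div_den x]
  field_simp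

/-- The height of a rational number. -/
def height (x : ℚ) : ℕ := max x.den x.num.natAbs

theorem den_le_height (x : ℚ) : (x.den : ℝ) ≤ height x := by
  exact_mod_cast le_max_left x.den x.num.natAbs

/-- A root of high order and large height makes the leading or the trailing coefficient large. -/
theorem height_pow_le {W : ℤ[X]} (hW : W ≠ 0) {x : ℚ} {t : ℕ}
    (h : (X - C x) ^ t ∣ W.map (Int.castRingHom ℚ)) :
    (height x : ℝ) ^ t ≤ max |(W.leadingCoeff : ℝ)| |(W.trailingCoeff : ℝ)| ∧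
      t ≤ W.natDegree := by
  have hdeg : t ≤ W.natDegree := by
    have h1 := natDegree_le_of_dvd h ((Polynomial.map_ne_zero_iff Int.cast_injective).2 hW)
    rw [natDegree_pow, natDegree_X_sub_C, mul_one] at h1
    exact h1.trans natDegree_map_le
  refine ⟨?_, hdeg⟩
  set L : ℤ[X] := C (x.den : ℤ) * X + C (-x.num) with hL
  have hden : (x.den : ℤ) ≠ 0 := by exact_mod_cast x.den_nz
  have hLdeg : L.natDegree = 1 := natDegree_linear hden
  have hprim : L.IsPrimitive := by
    intro r hr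
    have h0 : r ∣ L.coeff 0 := (C_dvd_iff_dvd_coeff r L).1 hr 0
    have h1 : r ∣ L.coeff 1 := (C_dvd_iff_dvd_coeff r L).1 hr 1
    simp only [hL, coeff_add, coeff_C_mul, coeff_X_zero, coeff_X_one, mul_zero, mul_one, zero_add,
      coeff_C_zero, coeff_C_of_ne_zero one_ne_zero, add_zero, dvd_neg] at h0 h1
    have hcop : IsCoprime x.num (x.den : ℤ) := Int.isCoprime_iff_gcd_eq_one.2 (by
      simpa [Int.gcd] using x.reduced)
    exact hcop.isUnit_of_dvd' h0 h1
  have hmap : (L ^ t).map (Int.castRingHom ℚ) = C ((x.den : ℚ) ^ t) * (X - C x) ^ t := by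
    rw [Polynomial.map_pow, C_pow, ← mul_pow]
    congr 1
    simp only [hL, Polynomial.map_add, Polynomial.map_mul, Polynomial.map_C, map_X]
    rw [mul_sub, ← C_mul, Rat.den_mul_eq_num, sub_eq_add_neg, ← C_neg, eq_intCast, eq_intCast]
    push_cast
    rfl
  have hdvd : L ^ t ∣ W := by
    rw [IsPrimitive.Int.dvd_iff_map_cast_dvd_map_cast _ _ (show (L ^ t).IsPrimitive by
      clear h hdeg hmap
      induction t with
      | zero => simp
      | succ t ih => rw [pow_succ]; exact IsPrimitive.mul ih hprim), hmap]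
    have hu : IsUnit (C ((x.den : ℚ) ^ t)) :=
      isUnit_C.2 (isUnit_iff_ne_zero.2 (pow_ne_zero _ (by exact_mod_cast x.den_nz)))
    exact (IsUnit.mul_left_dvd hu).2 h
  obtain ⟨g, rfl⟩ := hdvd
  have hg : g ≠ 0 := right_ne_zero_of_mul hW
  have hlead : (x.den : ℝ) ^ t ≤ |((L ^ t * g).leadingCoeff : ℝ)| := by
    rw [leadingCoeff_mul, leadingCoeff_pow, leadingCoeff_linear hden]
    push_cast
    rw [abs_mul, abs_pow, Nat.abs_cast]
    exact le_mul_of_one_le_right (by positivity)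
      (by exact_mod_cast Int.one_le_abs (leadingCoeff_ne_zero.2 hg))
  rcases le_total x.num.natAbs x.den with hle | hle
  · rw [height, max_eq_left hle]
    exact hlead.trans (le_max_left _ _)
  rw [height, max_eq_right hle]
  refine le_trans ?_ (le_max_right _ _)
  have hnum : L.coeff 0 ≠ 0 := by
    simp only [hL, coeff_add, coeff_C_mul, coeff_X_zero, mul_zero, coeff_C_zero, zero_add, ne_eq,
      neg_eq_zero]
    intro h0
    rw [h0] at hle
    exact absurd hle (by simp)
  have htrail : L.trailingCoeff = -x.num := by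
    rw [trailingCoeff, natTrailingDegree_eq_zero.2 (Or.inr hnum)]
    simp [hL]
  have hpow : (L ^ t).trailingCoeff = (-x.num) ^ t := by
    rw [← htrail]
    clear h hdeg hmap hlead hW
    induction t with
    | zero => rw [pow_zero, pow_zero, ← C_1, trailingCoeff, natTrailingDegree_C, coeff_C_zero]
    | succ t ih => rw [pow_succ, trailingCoeff_mul, ih, pow_succ]
  rw [trailingCoeff_mul, hpow]
  push_cast
  rw [abs_mul, abs_pow, abs_neg, Nat.cast_natAbs, Int.cast_abs]
  exact le_mul_of_one_le_right (by positivity)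
    (by exact_mod_cast Int.one_le_abs (mt trailingCoeff_eq_zero.1 hg))

/-- The coefficients of a Wronskian. -/
theorem abs_coeff_wronskian_le {H : ℝ} {P Q : ℤ[X]} (hP : Small H P) (hQ : Small H Q) {N : ℕ}
    (hPN : P.natDegree ≤ N) (hQN : Q.natDegree ≤ N) (i : ℕ) :
    |((wronskian P Q).coeff i : ℝ)| ≤ 2 * ((i + 1) * (N * H ^ 2)) := by
  have hder : ∀ {f : ℤ[X]}, Small H f → f.natDegree ≤ N → Small (N * H) (derivative f) := by
    intro f hf hfN k
    rw [coeff_derivative]
    push_cast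
    by_cases hc : f.coeff (k + 1) = 0
    · rw [hc, Int.cast_zero, zero_mul, abs_zero]
      exact mul_nonneg (Nat.cast_nonneg N) hf.nonneg
    · rw [abs_mul, mul_comm, abs_of_nonneg (by positivity : (0 : ℝ) ≤ (k : ℝ) + 1)]
      refine mul_le_mul ?_ (hf _) (abs_nonneg _) (Nat.cast_nonneg N)
      exact_mod_cast (le_natDegree_of_ne_zero hc).trans hfN
  have hmul : ∀ {f g : ℤ[X]} {a b : ℝ}, Small a f → Small b g →
      |((f * g).coeff i : ℝ)| ≤ (i + 1) * (a * b) := by
    intro f g a b hf hg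
    rw [coeff_mul]
    push_cast
    refine (Finset.abs_sum_le_sum_abs _ _).trans ?_
    refine (Finset.sum_le_card_nsmul _ _ (a * b) fun k _ => ?_).trans (le_of_eq (by simp))
    rw [abs_mul]
    exact mul_le_mul (hf _) (hg _) (abs_nonneg _) hf.nonneg
  rw [wronskian, coeff_sub]
  push_cast
  refine (abs_sub _ _).trans ((add_le_add (hmul hP (hder hQ hQN)) (hmul (hder hP hPN) hQ)).trans
    (le_of_eq ?_))
  ring

theorem wronskian_bound {H : ℝ} {N d : ℕ} (hN : 0 < N) (hd : d ≤ 2 * N) :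
    2 * (((d : ℝ) + 1) * ((N : ℝ) * H ^ 2)) ≤ 16 ^ N * H ^ 2 := by
  have h : 2 * ((d + 1) * N) ≤ 16 ^ N := by
    have h1 : 2 ≤ 2 ^ N := Nat.le_self_pow hN.ne' 2
    have h2 : d + 1 ≤ 4 ^ N := by
      rw [show 4 ^ N = 2 ^ (2 * N) by rw [pow_mul]; norm_num]
      exact (Nat.succ_le_succ hd).trans Nat.lt_two_pow_self
    calc 2 * ((d + 1) * N) ≤ 2 ^ N * (4 ^ N * 2 ^ N) := by
          gcongr
          exact Nat.lt_two_pow_self.le
      _ = 16 ^ N := by rw [← mul_pow, ← mul_pow]; norm_num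
  have h' : 2 * (((d : ℝ) + 1) * N) ≤ 16 ^ N := by exact_mod_cast h
  calc 2 * (((d : ℝ) + 1) * ((N : ℝ) * H ^ 2)) = 2 * (((d : ℝ) + 1) * N) * H ^ 2 := by ring
    _ ≤ 16 ^ N * H ^ 2 := mul_le_mul_of_nonneg_right h' (sq_nonneg H)

/-- Some Hasse derivative of `P - y Q` of low order does not vanish at `x`. -/
theorem exists_hasse_ne_zero {H : ℝ} {P Q : ℤ[X]} (hP : Small H P) (hQ : Small H Q) {N : ℕ}
    (hPN : P.natDegree ≤ N) (hQN : Q.natDegree ≤ N) (hW : wronskian P Q ≠ 0) (x y : ℚ) :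
    ∃ j : ℕ, (height x : ℝ) ^ (j - 1) ≤ 16 ^ N * H ^ 2 ∧
      (hasseDeriv j (P.map (Int.castRingHom ℚ))).eval x -
        y * (hasseDeriv j (Q.map (Int.castRingHom ℚ))).eval x ≠ 0 := by
  classical
  set G : ℚ[X] := P.map (Int.castRingHom ℚ) - C y * Q.map (Int.castRingHom ℚ) with hG
  have hev : ∀ j, (hasseDeriv j G).eval x = (hasseDeriv j (P.map (Int.castRingHom ℚ))).eval x -
      y * (hasseDeriv j (Q.map (Int.castRingHom ℚ))).eval x := fun j => by
    rw [hG, map_sub, ← smul_eq_C_mul, map_smul, eval_sub, eval_smul, smul_eq_mul]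
  have hdvd : ∀ t, (∀ j < t + 1, (hasseDeriv j G).eval x = 0) →
      (X - C x) ^ t ∣ (wronskian P Q).map (Int.castRingHom ℚ) := by
    intro t ht
    have h1 : (X - C x) ^ (t + 1) ∣ G := pow_dvd_iff.2 ht
    have h2 : (X - C x) ^ t ∣ derivative G := by
      have h := pow_sub_one_dvd_derivative_of_pow_dvd h1
      rwa [Nat.add_sub_cancel] at h
    have h3 : (wronskian P Q).map (Int.castRingHom ℚ) =
        G * derivative (Q.map (Int.castRingHom ℚ)) -
          derivative G * Q.map (Int.castRingHom ℚ) := by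
      simp only [wronskian, hG, Polynomial.map_sub, Polynomial.map_mul, derivative_map,
        derivative_sub, derivative_mul, derivative_C, zero_mul, zero_add]
      ring
    rw [h3]
    exact dvd_sub (((pow_dvd_pow _ t.le_succ).trans h1).mul_right _) (h2.mul_right _)
  have hex : ∃ j, (hasseDeriv j G).eval x ≠ 0 := by
    by_contra h
    push Not at h
    have := (height_pow_le hW (hdvd ((wronskian P Q).natDegree + 1) fun j _ => h j)).2
    omega
  refine ⟨Nat.find hex, ?_, fun h => Nat.find_spec hex ((hev _).trans h)⟩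
  have hN : 0 < N := Nat.pos_of_ne_zero fun h0 => by
    subst h0
    refine hW ?_
    rw [eq_C_of_natDegree_le_zero hPN, eq_C_of_natDegree_le_zero hQN, wronskian]
    simp
  have hdeg := natDegree_wronskian_lt_add hW
  have hcoef : max |((wronskian P Q).leadingCoeff : ℝ)| |((wronskian P Q).trailingCoeff : ℝ)| ≤
      16 ^ N * H ^ 2 := by
    refine max_le ((abs_coeff_wronskian_le hP hQ hPN hQN _).trans (wronskian_bound hN ?_))
      ((abs_coeff_wronskian_le hP hQ hPN hQN _).trans (wronskian_bound hN ?_))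
    · omega
    · have := natTrailingDegree_le_natDegree (wronskian P Q)
      omega
  rcases Nat.eq_zero_or_pos (Nat.find hex) with h0 | h0
  · have h1 := (height_pow_le hW (x := x) (t := 0) (by simp)).1
    rw [h0]
    exact h1.trans hcoef
  · exact ((height_pow_le hW (hdvd (Nat.find hex - 1) fun j hj =>
      not_not.1 (Nat.find_min hex (by omega)))).1).trans hcoef

/-- The value at a real point of a function with a zero of order `m` at `α`. -/
theorem abs_eval_aux_le {α A H : ℝ} (hA : A = |α| + 1) {P Q : ℤ[X]} (hP : Small H P)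
    (hQ : Small H Q) {N : ℕ} (hPN : P.natDegree ≤ N) (hQN : Q.natDegree ≤ N) {m : ℕ}
    (hvan : ∀ j < m, (hasseDeriv j (P.map (Int.castRingHom ℝ))).eval α -
      α * (hasseDeriv j (Q.map (Int.castRingHom ℝ))).eval α = 0) {x y : ℝ} (hx : |α - x| ≤ 1)
    (j : ℕ) :
    |(hasseDeriv j (P.map (Int.castRingHom ℝ))).eval x -
        y * (hasseDeriv j (Q.map (Int.castRingHom ℝ))).eval x| ≤
      H * (16 * A) ^ N * A * (|α - x| ^ (m - j) + |α - y|) := by
  set p := P.map (Int.castRingHom ℝ)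
  set r := Q.map (Int.castRingHom ℝ)
  set g := hasseDeriv j (p - C α * r) with hg
  have hA1 : 1 ≤ A := by linarith [abs_nonneg α]
  have hH : 0 ≤ H := hP.nonneg
  have hαA : |α| ≤ A := by linarith
  have hev : ∀ (i : ℕ) (z : ℝ), (hasseDeriv i (p - C α * r)).eval z =
      (hasseDeriv i p).eval z - α * (hasseDeriv i r).eval z := fun i z => by
    rw [map_sub, ← smul_eq_C_mul, map_smul, eval_sub, eval_smul, smul_eq_mul]
  have hN4 : ((N : ℝ) + 1) ≤ 2 ^ N := by exact_mod_cast Nat.lt_two_pow_self (n := N)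
  set B : ℝ := 8 ^ N * H * A ^ N * A with hB
  have hB0 : 0 ≤ B := mul_nonneg (mul_nonneg (mul_nonneg (by positivity) hH) (by positivity))
    (by linarith)
  have hgdeg : g.natDegree ≤ N := by
    refine (natDegree_hasseDeriv_le _ _).trans (le_trans (Nat.sub_le _ _) ?_)
    refine (natDegree_sub_le _ _).trans (max_le (natDegree_map_le.trans hPN) ?_)
    exact (natDegree_C_mul_le _ _).trans (natDegree_map_le.trans hQN)
  have hcoef : ∀ i, |(taylor α g).coeff i * (x - α) ^ i| ≤ B * |α - x| ^ (m - j) := by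
    intro i
    have hcomp : hasseDeriv i g = (((i + j).choose i : ℕ) : ℝ) •
        hasseDeriv (i + j) (p - C α * r) := by
      rw [hg, ← LinearMap.comp_apply, hasseDeriv_comp, LinearMap.smul_apply,
        ← Nat.cast_smul_eq_nsmul ℝ]
    rw [taylor_coeff, hcomp, eval_smul, smul_eq_mul, hev, abs_mul, abs_mul, Nat.abs_cast, abs_pow,
      abs_sub_comm x α]
    by_cases hij : i + j < m
    · rw [hvan _ hij, abs_zero, mul_zero, zero_mul]
      exact mul_nonneg hB0 (by positivity)
    · by_cases hN' : N < i + j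
      · have h0 : ∀ {f : ℤ[X]}, f.natDegree ≤ N →
            hasseDeriv (i + j) (f.map (Int.castRingHom ℝ)) = 0 := fun {f} hf =>
          hasseDeriv_eq_zero_of_lt_natDegree _ _
            ((natDegree_map_le.trans hf).trans_lt hN')
        simp only [p, r, h0 hPN, h0 hQN, eval_zero, mul_zero, sub_self, abs_zero, zero_mul]
        exact mul_nonneg hB0 (by positivity)
      · have hch : (((i + j).choose i : ℕ) : ℝ) ≤ 2 ^ N := by
          exact_mod_cast (Nat.choose_le_two_pow _ _).trans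
            (Nat.pow_le_pow_right two_pos (not_lt.1 hN'))
        refine mul_le_mul ?_ (pow_le_pow_of_le_one (abs_nonneg _) hx (by omega))
          (by positivity) hB0
        have h1 := abs_eval_hasseDeriv_le hP hPN hA1 hαA (i + j)
        have h2 := abs_eval_hasseDeriv_le hQ hQN hA1 hαA (i + j)
        have hX0 : 0 ≤ 2 ^ N * H * A ^ N := by positivity
        calc (((i + j).choose i : ℕ) : ℝ) *
              |(hasseDeriv (i + j) p).eval α - α * (hasseDeriv (i + j) r).eval α|
            ≤ 2 ^ N * ((N + 1) * (2 ^ N * H * A ^ N) * A) := by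
              refine mul_le_mul hch ((abs_sub _ _).trans ?_) (abs_nonneg _) (by positivity)
              rw [abs_mul]
              have h3 := mul_le_mul_of_nonneg_left h2 (abs_nonneg α)
              calc _ ≤ (N + 1) * (2 ^ N * H * A ^ N) + |α| * ((N + 1) * (2 ^ N * H * A ^ N)) :=
                    add_le_add h1 h3
                _ = (N + 1) * (2 ^ N * H * A ^ N) * A := by rw [hA]; ring
          _ ≤ 2 ^ N * (2 ^ N * (2 ^ N * H * A ^ N) * A) := by gcongr
          _ = B := by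
              rw [hB, show (8 : ℝ) = 2 * 2 * 2 by norm_num, mul_pow, mul_pow]; ring
  have hgx : |g.eval x| ≤ (2 ^ N * B) * |α - x| ^ (m - j) := by
    have ht : g.eval x = (taylor α g).eval (x - α) := by rw [taylor_eval, sub_add_cancel]
    rw [ht, eval_eq_sum_range' (n := N + 1) (by rw [natDegree_taylor]; omega)]
    refine (Finset.abs_sum_le_sum_abs _ _).trans ((Finset.sum_le_card_nsmul _ _ _
      fun i _ => hcoef i).trans ?_)
    rw [Finset.card_range, nsmul_eq_mul, mul_assoc ((2 : ℝ) ^ N) B]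
    exact mul_le_mul_of_nonneg_right
      (show ((N + 1 : ℕ) : ℝ) ≤ 2 ^ N by exact_mod_cast Nat.lt_two_pow_self (n := N))
      (mul_nonneg hB0 (pow_nonneg (abs_nonneg _) _))
  have hrx : |(hasseDeriv j r).eval x| ≤ 2 ^ N * B := by
    refine (abs_eval_hasseDeriv_le hQ hQN hA1 ?_ j).trans ?_
    · have := abs_sub_abs_le_abs_sub x α
      rw [abs_sub_comm x α] at this
      linarith
    · refine mul_le_mul hN4 ?_ (mul_nonneg (mul_nonneg (by positivity) hH) (by positivity))
        (by positivity)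
      rw [hB]
      calc (2 : ℝ) ^ N * H * A ^ N ≤ 8 ^ N * H * A ^ N := by gcongr; norm_num
        _ ≤ 8 ^ N * H * A ^ N * A := le_mul_of_one_le_right (by positivity) hA1
  have hsplit : (hasseDeriv j p).eval x - y * (hasseDeriv j r).eval x =
      g.eval x + (α - y) * (hasseDeriv j r).eval x := by rw [hg, hev]; ring
  have hK : 2 ^ N * B = H * (16 * A) ^ N * A := by
    rw [hB, mul_pow, show (16 : ℝ) = 2 * 8 by norm_num, mul_pow]; ring
  rw [hsplit, ← hK, mul_add]
  refine (abs_add_le _ _).trans (add_le_add hgx ?_)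
  rw [abs_mul, mul_comm]
  exact mul_le_mul_of_nonneg_right hrx (abs_nonneg _)

/-- **Two approximations** cannot both be too good. -/
theorem exists_gap {α : ℝ} (hα : IsIntegral ℤ α) (hirr : Irrational α) {n : ℕ}
    (hn : (minpoly ℤ α).natDegree = n) {s : ℕ} (hs : 2 ≤ s) :
    ∃ K : ℝ, 1 ≤ K ∧ ∀ m : ℕ, 1 ≤ m → ∀ x y : ℚ, |α - x| ≤ 1 → ∃ j : ℕ,
      (x.den : ℝ) ^ (j - 1) ≤ K ^ m ∧
      1 ≤ (x.den : ℝ) ^ (n * m * (s + 1) / (2 * s)) * (y.den : ℝ) *
        (K ^ m * (|α - x| ^ (m - j) + |α - y|)) := by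
  have hn0 : 0 < n := hn ▸ minpoly.natDegree_pos hα
  obtain ⟨C, hC1, hC⟩ := exists_auxiliary (minpoly.monic hα) hn hn0 s
  set A := |α| + 1 with hA
  have hA1 : 1 ≤ A := by linarith [abs_nonneg α]
  refine ⟨C ^ 2 * (16 * A) ^ n * A, one_le_mul_of_one_le_of_one_le (one_le_mul_of_one_le_of_one_le
    (one_le_pow₀ hC1) (one_le_pow₀ (by linarith))) hA1, fun m hm x y hx => ?_⟩
  set N := n * m * (s + 1) / (2 * s) with hN
  have hnm : 0 < n * m := by positivity
  have h2s : 0 < 2 * s := by omega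
  have hNlt : N < n * m := by
    rw [hN, Nat.div_lt_iff_lt_mul h2s]
    exact Nat.mul_lt_mul_of_pos_left (by omega) hnm
  have hNge : n * m * (s + 1) ≤ 2 * s * (N + 1) := (Nat.lt_mul_div_succ _ h2s).le
  obtain ⟨P, Q, hne, hPN, hQN, hP, hQ, hvanAll⟩ := hC m hm N hNlt.le hNge
  have hvan := hvanAll α (minpoly.aeval ℤ α)
  have hW := wronskian_ne_zero hα hirr hn hne (hPN.trans_lt hNlt) (hQN.trans_lt hNlt) hvan
  obtain ⟨j, hj, hF⟩ := exists_hasse_ne_zero hP hQ hPN hQN hW x y
  have hA0 : 0 ≤ C := by linarith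
  refine ⟨j, ((pow_le_pow_left₀ (Nat.cast_nonneg _) (den_le_height x) _).trans hj).trans ?_, ?_⟩
  · calc (16 : ℝ) ^ N * (C ^ m) ^ 2 ≤ (16 * A) ^ (n * m) * (C ^ 2) ^ m * A ^ m := by
          rw [← pow_mul, mul_comm m 2, pow_mul C 2 m]
          refine le_trans ?_ (le_mul_of_one_le_right (by positivity) (one_le_pow₀ hA1))
          refine mul_le_mul_of_nonneg_right ?_ (by positivity)
          exact (pow_le_pow_left₀ (by norm_num) (le_mul_of_one_le_right (by norm_num) hA1) N).trans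
            (pow_le_pow_right₀ (by linarith) hNlt.le)
      _ = (C ^ 2 * (16 * A) ^ n * A) ^ m := by simp only [mul_pow, ← pow_mul]; ring
  · have hup := abs_eval_aux_le hA hP hQ hPN hQN hvan (y := (y : ℝ)) hx j
    obtain ⟨zP, hzP⟩ := exists_int_eval (hasseDeriv j P)
      (N := N) ((natDegree_hasseDeriv_le P j).trans (by omega)) x
    obtain ⟨zQ, hzQ⟩ := exists_int_eval (hasseDeriv j Q)
      (N := N) ((natDegree_hasseDeriv_le Q j).trans (by omega)) x
    rw [map_hasseDeriv, map_hasseDeriv] at hF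
    set F : ℚ := ((hasseDeriv j P).map (Int.castRingHom ℚ)).eval x -
      y * ((hasseDeriv j Q).map (Int.castRingHom ℚ)).eval x with hF_def
    have hint : (x.den : ℚ) ^ N * y.den * F = ((y.den : ℤ) * zP - y.num * zQ : ℤ) := by
      push_cast
      rw [← hzP, ← hzQ, ← Rat.mul_den_eq_num y, hF_def]
      ring
    have hne0 : ((y.den : ℤ) * zP - y.num * zQ : ℤ) ≠ 0 := fun h0 => by
      rw [h0, Int.cast_zero, mul_eq_zero] at hint
      rcases hint with h | h
      · exact mul_ne_zero (pow_ne_zero _ (by exact_mod_cast x.den_nz))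
          (by exact_mod_cast y.den_nz) h
      · exact hF h
    have h1 : (1 : ℝ) ≤ |(((x.den : ℚ) ^ N * y.den * F : ℚ) : ℝ)| := by
      rw [hint, Rat.cast_intCast]
      exact_mod_cast Int.one_le_abs hne0
    have hmapx : ∀ f : ℤ[X], (((f.map (Int.castRingHom ℚ)).eval x : ℚ) : ℝ) =
        (f.map (Int.castRingHom ℝ)).eval (x : ℝ) := fun f => by
      rw [eval_map, eval_map, ← eq_ratCast (Rat.castHom ℝ), hom_eval₂, eq_ratCast]
      congr 1
    rw [Rat.cast_mul, Rat.cast_mul, Rat.cast_pow, Rat.cast_natCast, Rat.cast_natCast, abs_mul,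
      abs_mul, abs_pow, Nat.abs_cast, Nat.abs_cast, hF_def, Rat.cast_sub, Rat.cast_mul, hmapx,
      hmapx, ← map_hasseDeriv, ← map_hasseDeriv] at h1
    refine h1.trans (mul_le_mul_of_nonneg_left (hup.trans ?_) (by positivity))
    refine mul_le_mul_of_nonneg_right ?_ (by positivity)
    calc C ^ m * (16 * A) ^ N * A ≤ (C ^ 2) ^ m * (16 * A) ^ (n * m) * A ^ m := by
          gcongr
          · exact le_self_pow₀ hC1 two_ne_zero
          · linarith
          · exact le_self_pow₀ hA1 (by omega)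
      _ = (C ^ 2 * (16 * A) ^ n * A) ^ m := by simp only [mul_pow, ← pow_mul]

/-- Rationals with bounded denominator near a real number are finite in number. -/
theorem finite_den_le (α : ℝ) (B : ℕ) :
    {x : ℚ | |α - x| ≤ 1 ∧ x.den ≤ B}.Finite := by
  obtain ⟨M, hM⟩ := exists_nat_ge ((|α| + 1) * B)
  refine Set.Finite.of_finite_image (f := fun x : ℚ => (x.num, x.den)) ?_
    fun a _ b _ h => Rat.ext (congrArg Prod.fst h) (congrArg Prod.snd h)
  refine ((Set.finite_Icc (-(M : ℤ)) M).prod (Set.finite_Iic B)).subset ?_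
  rintro _ ⟨x, ⟨hx, hxB⟩, rfl⟩
  refine ⟨abs_le.1 ?_, hxB⟩
  have h1 : |(x : ℝ)| ≤ |α| + 1 := by
    have := abs_sub_abs_le_abs_sub (x : ℝ) α
    rw [abs_sub_comm (x : ℝ) α] at this
    linarith
  have h2 : |(x.num : ℝ)| ≤ M := by
    have : (x.num : ℝ) = (x : ℝ) * x.den := by exact_mod_cast (Rat.mul_den_eq_num x).symm
    rw [this, abs_mul, Nat.abs_cast]
    exact (mul_le_mul h1 (by exact_mod_cast hxB) (Nat.cast_nonneg _) (by positivity)).trans hM
  exact_mod_cast h2

/-- Thue's theorem for algebraic integers. -/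
theorem finite_of_isIntegral {α : ℝ} (hα : IsIntegral ℤ α) (hirr : Irrational α) {n : ℕ}
    (hn : (minpoly ℤ α).natDegree = n) {κ : ℝ} (hκ : (n : ℝ) / 2 + 1 < κ) :
    {x : ℚ | |α - x| < (x.den : ℝ) ^ (-κ)}.Finite := by
  classical
  by_contra hinf
  set ε := κ - n / 2 - 1 with hε
  have hε0 : 0 < ε := by linarith
  have hn0 : (0 : ℝ) ≤ n := Nat.cast_nonneg n
  have hκ0 : 0 < κ := by linarith
  set s := max 2 ⌈2 * (n : ℝ) / ε⌉₊ with hs
  have hs2 : 2 ≤ s := le_max_left _ _
  have hns : (n : ℝ) / (2 * s) ≤ ε / 4 := by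
    have h1 : 2 * (n : ℝ) / ε ≤ s :=
      (Nat.le_ceil _).trans (Nat.cast_le.2 (hs ▸ le_max_right 2 _))
    rw [div_le_iff₀ hε0] at h1
    rw [div_le_iff₀ (by positivity)]
    linarith
  obtain ⟨K, hK, hgap⟩ := exists_gap hα hirr hn hs2
  set γ := ε / (4 * (κ + 1)) with hγ
  have hγ0 : 0 < γ := by positivity
  have hpick : ∀ B : ℕ, ∃ x : ℚ, |α - x| < (x.den : ℝ) ^ (-κ) ∧ B < x.den := fun B => by
    by_contra hno
    push Not at hno
    refine hinf ((finite_den_le α B).subset fun x hx => ⟨?_, hno x hx⟩)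
    refine hx.le.trans (Real.rpow_le_one_of_one_le_of_nonpos ?_ (by linarith))
    exact_mod_cast x.pos
  obtain ⟨x, hxα, hxB⟩ := hpick (max 2 ⌈K ^ (1 / γ)⌉₊)
  obtain ⟨y, hyα, hyB⟩ := hpick (x.den ^ (⌈2 * (κ + 2) / ε⌉₊ + 2))
  set q := (x.den : ℝ) with hq
  have hxd : 2 < x.den := (le_max_left _ _).trans_lt hxB
  have hq2 : (2 : ℝ) ≤ q := by rw [hq]; exact_mod_cast hxd.le
  have hq0 : 0 < q := by linarith
  have hKq : K ≤ q ^ γ := by
    have h1 : K ^ (1 / γ) ≤ q := (Nat.le_ceil _).trans (by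
      rw [hq]; exact_mod_cast (le_max_right _ _).trans hxB.le)
    have h2 := Real.rpow_le_rpow (by positivity) h1 hγ0.le
    rwa [← Real.rpow_mul (by linarith), one_div_mul_cancel hγ0.ne', Real.rpow_one] at h2
  set m := Nat.log x.den y.den with hm
  have hlo : x.den ^ m ≤ y.den := Nat.pow_log_le_self _ y.den_nz
  have hhi : y.den < x.den ^ (m + 1) := Nat.lt_pow_succ_log_self (by omega) _
  have hmM : ⌈2 * (κ + 2) / ε⌉₊ + 2 ≤ m := Nat.le_log_of_pow_le (by omega) hyB.le
  have hmreal : 2 * (κ + 2) / ε < m := by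
    have : ((⌈2 * (κ + 2) / ε⌉₊ : ℕ) : ℝ) + 2 ≤ m := by exact_mod_cast hmM
    linarith [Nat.le_ceil (2 * (κ + 2) / ε)]
  have hx1 : |α - x| ≤ 1 := hxα.le.trans
    (Real.rpow_le_one_of_one_le_of_nonpos (by linarith) (by linarith))
  obtain ⟨j, hj, hge⟩ := hgap m (by omega) x y hx1
  have hKm : K ^ m ≤ q ^ (γ * m) := by
    rw [Real.rpow_mul hq0.le, Real.rpow_natCast]
    exact pow_le_pow_left₀ (by linarith) hKq m
  have hjm : (j : ℝ) ≤ γ * m + 1 := by
    have h1 : q ^ (((j - 1 : ℕ) : ℝ)) ≤ q ^ (γ * m) := by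
      rw [Real.rpow_natCast]; exact hj.trans hKm
    rw [Real.rpow_le_rpow_left_iff (by linarith)] at h1
    have : (j : ℝ) ≤ ((j - 1 : ℕ) : ℝ) + 1 := by exact_mod_cast (show j ≤ j - 1 + 1 by omega)
    linarith
  set N := n * m * (s + 1) / (2 * s) with hN
  have hNb : (N : ℝ) ≤ m * (n / 2 + ε / 4) := by
    refine (Nat.cast_div_le).trans ?_
    push_cast
    have hs0 : (0 : ℝ) < s := by exact_mod_cast (show 0 < s by omega)
    calc (n : ℝ) * m * (s + 1) / (2 * s) = m * (n / 2 + n / (2 * s)) := by field_simp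
      _ ≤ m * (n / 2 + ε / 4) := by gcongr
  set e := κ * (m - (γ * m + 1)) with he
  have hxe : |α - x| ^ (m - j) ≤ q ^ (-e) := by
    refine (pow_le_pow_left₀ (abs_nonneg _) hxα.le _).trans ?_
    rw [← Real.rpow_natCast, ← Real.rpow_mul hq0.le]
    refine Real.rpow_le_rpow_of_exponent_le (by linarith) ?_
    have h1 : (m : ℝ) ≤ ((m - j : ℕ) : ℝ) + j := by exact_mod_cast (show m ≤ m - j + j by omega)
    nlinarith
  have hye : |α - y| ≤ q ^ (-e) := by
    refine hyα.le.trans ?_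
    have h1 : q ^ (m : ℝ) ≤ (y.den : ℝ) := by
      rw [Real.rpow_natCast, hq]; exact_mod_cast hlo
    refine (Real.rpow_le_rpow_of_nonpos (Real.rpow_pos_of_pos hq0 _) h1 (by linarith)).trans ?_
    rw [← Real.rpow_mul hq0.le]
    refine Real.rpow_le_rpow_of_exponent_le (by linarith) ?_
    nlinarith [mul_nonneg hκ0.le (add_nonneg (mul_nonneg hγ0.le (Nat.cast_nonneg m)) zero_le_one)]
  have hyd : (y.den : ℝ) ≤ q ^ ((m : ℝ) + 1) := by
    rw [← Nat.cast_add_one, Real.rpow_natCast, hq]; exact_mod_cast hhi.le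
  have hfinal : (1 : ℝ) ≤ q ^ ((N : ℝ) + ((m : ℝ) + 1) + γ * m + 1 + -e) := by
    refine hge.trans ?_
    rw [Real.rpow_add hq0, Real.rpow_add hq0, Real.rpow_add hq0, Real.rpow_add hq0 (N : ℝ),
      Real.rpow_one, Real.rpow_natCast q N]
    calc q ^ N * (y.den : ℝ) * (K ^ m * (|α - x| ^ (m - j) + |α - y|))
        ≤ q ^ N * q ^ ((m : ℝ) + 1) * (q ^ (γ * m) * (q * q ^ (-e))) := by
          gcongr
          calc |α - x| ^ (m - j) + |α - y| ≤ 2 * q ^ (-e) := by linarith
            _ ≤ q * q ^ (-e) := by gcongr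
      _ = q ^ N * q ^ ((m : ℝ) + 1) * q ^ (γ * m) * q * q ^ (-e) := by ring
  have hexp : (N : ℝ) + ((m : ℝ) + 1) + γ * m + 1 + -e < 0 := by
    have h1 : γ * (κ + 1) = ε / 4 := by rw [hγ]; field_simp
    rw [div_lt_iff₀ hε0] at hmreal
    have h2 : γ * (κ + 1) * m = ε / 4 * m := by rw [h1]
    rw [he]
    nlinarith
  exact absurd hfinal (not_le.2 (Real.rpow_lt_one_of_one_lt_of_neg (by linarith) hexp))

open IntermediateField in
/-- **Thue's theorem.** -/
theorem finite_approximations {α : ℝ} (hα : IsAlgebraic ℚ α) (hirr : Irrational α) {κ : ℝ}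
    (hκ : ((minpoly ℚ α).natDegree : ℝ) / 2 + 1 < κ) :
    {x : ℚ | |α - x| < (x.den : ℝ) ^ (-κ)}.Finite := by
  classical
  haveI : Algebra.IsAlgebraic ℤ ℚ := IsLocalization.isAlgebraic ℚ (nonZeroDivisors ℤ)
  obtain ⟨D, hD, hint⟩ :=
    ((IsFractionRing.isAlgebraic_iff ℤ ℚ ℝ).2 hα).exists_integral_multiple
  rw [zsmul_eq_mul] at hint
  have hDR : (D : ℝ) ≠ 0 := Int.cast_ne_zero.2 hD
  set n := (minpoly ℚ α).natDegree with hn
  have hdeg : (minpoly ℤ ((D : ℝ) * α)).natDegree = n := by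
    have h1 : minpoly ℚ ((D : ℝ) * α) =
        (minpoly ℤ ((D : ℝ) * α)).map (algebraMap ℤ ℚ) :=
      minpoly.isIntegrallyClosed_eq_field_fractions' ℚ hint
    have h2 : ℚ⟮(D : ℝ) * α⟯ = ℚ⟮α⟯ := by
      refine le_antisymm (adjoin_simple_le_iff.2 ?_) (adjoin_simple_le_iff.2 ?_)
      · exact mul_mem (intCast_mem _ D) (mem_adjoin_simple_self ℚ α)
      · have := div_mem (mem_adjoin_simple_self ℚ ((D : ℝ) * α)) (intCast_mem _ D)
        rwa [mul_div_cancel_left₀ _ hDR] at this
    have h3 := congrArg (fun E : IntermediateField ℚ ℝ => Module.finrank ℚ E) h2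
    simp only [adjoin.finrank (hint.tower_top (A := ℚ)), adjoin.finrank hα.isIntegral] at h3
    rw [hn, ← h3, h1, natDegree_map_eq_of_injective (algebraMap ℤ ℚ).injective_int]
  set κ' := ((n : ℝ) / 2 + 1 + κ) / 2 with hκ'
  have hκ'1 : (n : ℝ) / 2 + 1 < κ' := by linarith
  have hfin := finite_of_isIntegral hint (hirr.intCast_mul hD) hdeg hκ'1
  have hpre :
      {x : ℚ | |(D : ℝ) * α - ((D : ℚ) * x : ℚ)| < (((D : ℚ) * x).den : ℝ) ^ (-κ')}.Finite :=
    hfin.preimage (fun a _ b _ h => mul_left_cancel₀ (Int.cast_ne_zero.2 hD) h)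
  have hgap : 0 < κ - κ' := by linarith
  obtain ⟨B, hB⟩ := exists_nat_gt (|(D : ℝ)| ^ (1 / (κ - κ')))
  refine (hpre.union (finite_den_le α B)).subset fun x hx => ?_
  have hκ'0 : 0 < κ' := by linarith [Nat.cast_nonneg (α := ℝ) n]
  have hd1 : (1 : ℝ) ≤ x.den := by exact_mod_cast x.pos
  by_cases hxB : x.den ≤ B
  · exact Or.inr ⟨hx.le.trans (Real.rpow_le_one_of_one_le_of_nonpos hd1 (by linarith)), hxB⟩
  refine Or.inl ?_
  show |(D : ℝ) * α - (((D : ℚ) * x : ℚ) : ℝ)| < _
  rw [Rat.cast_mul, Rat.cast_intCast, ← mul_sub, abs_mul]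
  have hden : (((D : ℚ) * x).den : ℝ) ≤ x.den := by
    have h := Rat.mul_den_dvd (D : ℚ) x
    rw [Rat.den_intCast, one_mul] at h
    exact_mod_cast Nat.le_of_dvd x.pos h
  have hDx : |(D : ℝ)| ≤ (x.den : ℝ) ^ (κ - κ') := by
    have h1 : |(D : ℝ)| ^ (1 / (κ - κ')) ≤ x.den :=
      hB.le.trans (by exact_mod_cast (not_le.1 hxB).le)
    have h2 := Real.rpow_le_rpow (by positivity) h1 hgap.le
    rwa [← Real.rpow_mul (abs_nonneg _), one_div_mul_cancel hgap.ne', Real.rpow_one] at h2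
  calc |(D : ℝ)| * |α - x| < |(D : ℝ)| * (x.den : ℝ) ^ (-κ) :=
        mul_lt_mul_of_pos_left hx (abs_pos.2 hDR)
    _ ≤ (x.den : ℝ) ^ (κ - κ') * (x.den : ℝ) ^ (-κ) := by gcongr
    _ = (x.den : ℝ) ^ (-κ') := by rw [← Real.rpow_add (by linarith)]; ring_nf
    _ ≤ (((D : ℚ) * x).den : ℝ) ^ (-κ') :=
        Real.rpow_le_rpow_of_nonpos (by exact_mod_cast ((D : ℚ) * x).pos) hden (by linarith)

end FA.Thue

end
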